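import Mathlib
import Fermat.Agent.Lib.BadRed.Graph.Deuring.PermDef
import Fermat.Agent.Lib.BadRed.Graph.RedSpaceG
import Fermat.Agent.Lib.BadRed.Graph.RRGraph
import Fermat.Agent.Lib.BadRed.Nodal.Deuring2.Canon

set_option autoImplicit false
set_option linter.unusedSectionVars false

/-!
# Cluster G, graph Deuring construction, DEU-4: CANONICITY of the reduction of places
(helper40; port of `Nodal/Deuring2/Canon.lean` + `CanonSemi.lean`, with a permutation of the
components)

* `GraphType.r_eq_of_pole` : **uniqueness**: if some `f ∈ 𝔏(m D₀ + P)` has a reduction on `c` with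
  a pole of order `m R_c(Q) + 1` at the smooth point `Q`, then `r P = some ⟨c, Q⟩`;
* `graph_isInt_smul` : an automorphism which permutes the valuation rings and fixes `D₀` maps
  `𝔏(m D₀ + P)` into `𝔏(m D₀ + t P)`;
* `GraphType.rSmulPerm : T.RSmulPerm` : `r (t • P) = (π, e) • r P` for the automorphisms of the
  seed (`GraphSeed.IsPermAut`);
* `GraphType.ordSmulPerm : T.OrdSmulPerm` : they preserve the ordinary places;
* `GraphType.canon : T.Canon` : `r (t • P) = r P` for the automorphisms which preserve the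
  valuation rings and are trivial on the residue fields (the inertial case of T).
-/

noncomputable section

open AlgebraicCurve Fermat.Agent.RR Fermat.Agent.Deuring

namespace Fermat.Agent.BadRedG

open Fermat.Agent.BadRed

variable {K F k : Type*} [Field K] [Field F] [Algebra K F] [Field k]
  {κ : Type*} {Fk : κ → Type*} [∀ c, Field (Fk c)] [∀ c, Algebra k (Fk c)] {ι : Type*}
  [Fintype κ] [Fintype ι] {G : GraphSeed K F k κ Fk ι}

/-! ### (i) uniqueness -/

/-- **uniqueness of the reduction**: a pole of order `m R_c(Q) + 1` at the smooth point `Q` of a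
function of `𝔏(m D₀ + P)` forces `r P = ⟨c, Q⟩`. -/
theorem GraphType.r_eq_of_pole (T : GraphType G) {P : Place K F} {c : κ} {Q : Place k (Fk c)}
    (hQ : G.toGraphCore.IsSmoothPt c Q) {m : ℕ} {f : F}
    (hf : G.toGraphCore.IsInt (m • G.D₀ + Finsupp.single P 1) f) (hred : (G.S c).red f ≠ 0)
    (hord : Q.ord ((G.S c).red f) = -((m • G.R c) Q) - 1) : T.r P = some ⟨c, Q⟩ := by
  by_contra hne
  obtain ⟨m', h, hh, hhred, hhord⟩ := T.unit P c Q hQ hne
  have hfh : G.toGraphCore.IsInt ((m + m') • G.D₀) (f * h) := by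
    have h1 := GraphCore.IsInt.mul G.toGraphCore hf hh
    have e : m • G.D₀ + Finsupp.single P 1 + (m' • G.D₀ - Finsupp.single P 1) =
        (m + m') • G.D₀ := by
      rw [add_smul]
      abel
    rwa [e] at h1
  have hseed := G.seed (m + m') (f * h) hfh.1 hfh.2
  rw [mem_graphRR] at hseed
  have h1 : (G.S c).red (f * h) ∈ riemannRochSpace ((m + m') • G.R c) := hseed.1 c
  rw [(G.S c).red_mul (hf.2 c) (hh.2 c)] at h1
  exact canon_not_mem_aux (G.R c) Q hred hhred hord hhord h1

/-! ### (ii) transport of `𝔏(m D₀ + P)` -/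

/-- an automorphism which permutes the valuation rings and fixes `D₀` maps `𝔏(m D₀ + P)` into
`𝔏(m D₀ + t P)`. -/
theorem graph_isInt_smul (t : SemilinearAut K F) (π : Equiv.Perm κ)
    (hm : ∀ (c : κ) (f : F), f ∈ (G.S c).Ov → t • f ∈ (G.S (π c)).Ov)
    (hD : ∀ P, G.D₀ (t • P) = G.D₀ P) {m : ℕ} {P : Place K F} {f : F}
    (hf : G.toGraphCore.IsInt (m • G.D₀ + Finsupp.single P 1) f) :
    G.toGraphCore.IsInt (m • G.D₀ + Finsupp.single (t • P) 1) (t • f) := by
  classical
  obtain ⟨h1, h2⟩ := hf
  refine ⟨?_, fun c => ?_⟩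
  · rw [mem_riemannRochSpace_iff] at h1 ⊢
    intro v
    rcases h1 (t⁻¹ • v) with h0 | hle
    · left
      rw [h0, smul_zero]
    · right
      have hord : v.ord (t • f) = (t⁻¹ • v).ord f := by
        have h := SemilinearAut.ord_smul t (t⁻¹ • v) f
        rwa [smul_inv_smul] at h
      have hdiv : (m • G.D₀ + Finsupp.single (t • P) 1 : Divisor K F) v =
          (m • G.D₀ + Finsupp.single P 1 : Divisor K F) (t⁻¹ • v) := by
        have hD' : G.D₀ v = G.D₀ (t⁻¹ • v) := by
          have := hD (t⁻¹ • v)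
          rwa [smul_inv_smul] at this
        rw [Finsupp.add_apply, Finsupp.add_apply, Finsupp.smul_apply, Finsupp.smul_apply, hD',
          Finsupp.single_apply, Finsupp.single_apply]
        congr 1
        by_cases hP : t • P = v
        · have hP' : P = t⁻¹ • v := by rw [← hP, inv_smul_smul]
          rw [if_pos hP, if_pos hP']
        · have hP' : ¬ P = t⁻¹ • v := by
            intro h
            apply hP
            rw [h, smul_inv_smul]
          rw [if_neg hP, if_neg hP']
      rw [hord, hdiv]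
      exact hle
  · have h := hm (π.symm c) f (h2 _)
    rwa [Equiv.apply_symm_apply] at h

/-! ### (iii) the theorems -/

/-- **canonicity for the automorphisms of the seed which permute the components**:
`r (t • P) = (π, e) • r P`. -/
theorem GraphType.rSmulPerm (T : GraphType G) : T.RSmulPerm := by
  intro t π e ht P c Q hX
  obtain ⟨m, f, hf, hred, hord⟩ := T.pole P c Q hX
  have hQ : G.toGraphCore.IsSmoothPt c Q :=
    ⟨fun i hi => T.r_ne_node₁ P i (by rw [hX, hi]), fun i hi => T.r_ne_node₂ P i (by rw [hX, hi])⟩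
  obtain ⟨Q', hcorr, hR⟩ := ht.R_smul c Q
  have hQ' := ht.smooth c Q Q' hcorr hQ
  have hf' := graph_isInt_smul t π ht.mem ht.D₀_smul hf
  have hred' : (G.S (π c)).red (t • f) = e c ((G.S c).red f) := ht.red c f (hf.2 c)
  refine ⟨Q', hcorr, T.r_eq_of_pole hQ' hf' ?_ ?_⟩
  · rw [hred']
    exact (map_ne_zero_iff (e c) (e c).injective).mpr hred
  · rw [hred', hcorr, hord, Finsupp.smul_apply, Finsupp.smul_apply, hR]

/-- the automorphisms of the seed preserve the ordinary places. -/
theorem GraphType.ordSmulPerm (T : GraphType G) : T.OrdSmulPerm :=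
  T.ordSmulPerm_of_rSmulPerm T.rSmulPerm

/-- one direction of the inertial canonicity. -/
theorem GraphType.r_of_r_smul (T : GraphType G) (t : SemilinearAut K F)
    (hm : ∀ (c : κ) (f : F), f ∈ (G.S c).Ov → t • f ∈ (G.S c).Ov)
    (hr : ∀ (c : κ) (f : F), f ∈ (G.S c).Ov → (G.S c).red (t • f) = (G.S c).red f)
    (hD : ∀ P, G.D₀ (t • P) = G.D₀ P) (P : Place K F)
    (X : Σ c, Place k (Fk c)) (hX : T.r (t • P) = some X) : T.r P = some X := by
  have hDinv : ∀ P, G.D₀ (t⁻¹ • P) = G.D₀ P := by
    intro P
    have := hD (t⁻¹ • P)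
    rw [smul_inv_smul] at this
    exact this.symm
  obtain ⟨c, Q⟩ := X
  obtain ⟨m, f, hf, hred, hord⟩ := T.pole (t • P) c Q hX
  have hQ : G.toGraphCore.IsSmoothPt c Q :=
    ⟨fun i hi => T.r_ne_node₁ (t • P) i (by rw [hX, hi]),
      fun i hi => T.r_ne_node₂ (t • P) i (by rw [hX, hi])⟩
  have hf' := graph_isInt_smul (G := G) t⁻¹ (Equiv.refl κ)
    (fun c f hf => canon_inv_mem (G.S c) t (hm c) (hr c) f hf) hDinv hf
  rw [inv_smul_smul] at hf'
  have hred' : (G.S c).red (t⁻¹ • f) = (G.S c).red f :=
    canon_inv_red (G.S c) t (hm c) (hr c) f (hf.2 c)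
  exact T.r_eq_of_pole hQ hf' (by rw [hred']; exact hred) (by rw [hred']; exact hord)

/-- **canonicity** (inertial case): `r (t • P) = r P`. -/
theorem GraphType.canon (T : GraphType G) : T.Canon := by
  intro t hm hr hD P
  have hDinv : ∀ P, G.D₀ (t⁻¹ • P) = G.D₀ P := by
    intro P
    have := hD (t⁻¹ • P)
    rw [smul_inv_smul] at this
    exact this.symm
  have hback : ∀ X, T.r P = some X → T.r (t • P) = some X := by
    intro X hX
    have h := T.r_of_r_smul t⁻¹ (fun c f hf => canon_inv_mem (G.S c) t (hm c) (hr c) f hf)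
      (fun c f hf => canon_inv_red (G.S c) t (hm c) (hr c) f hf) hDinv (t • P) X
    rw [inv_smul_smul] at h
    exact h hX
  cases hP : T.r P with
  | some X => exact hback X hP
  | none =>
    cases htP : T.r (t • P) with
    | none => rfl
    | some X =>
      have := T.r_of_r_smul t hm hr hD P X htP
      rw [hP] at this
      exact absurd this (by simp)

end Fermat.Agent.BadRedG
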