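import Mathlib
import Fermat.Agent.Lib.BadRed.Graph.Deuring.TypeDef
import Fermat.Agent.Lib.BadRed.Graph.RedSpaceG
import Fermat.Agent.Lib.BadRed.Nodal.Deuring2.Node

set_option autoImplicit false

/-!
# Cluster G, graph Deuring construction, step S8: the NODE CONDITION
(port of `Nodal/Deuring2/Node.lean`)

`GraphType.node : T.Node` : a function `f ∈ ⋂_c O_c` without poles in the annuli (`T.r P = none`)
reduces to a tuple of functions which are regular at the nodes and take the same value on both
branches.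

Proof: kill the poles of `f` (ordinary places) by a product `z` of the functions of
`T.node_unit` (value `1` at the node `i`); then `f z ∈ 𝔏(M D₀)` reduces to a nodal tuple by the
seed, and `red_c f = red_c (f z) / red_c z`.
-/

noncomputable section

open AlgebraicCurve Fermat.Agent.RR Fermat.Agent.Deuring

namespace Fermat.Agent.BadRedG

open Fermat.Agent.BadRed

variable {K F k : Type*} [Field K] [Field F] [Algebra K F] [Field k]
  {κ : Type*} {Fk : κ → Type*} [∀ c, Field (Fk c)] [∀ c, Algebra k (Fk c)] {ι : Type*}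
  [Fintype κ] [Fintype ι] {G : GraphSeed K F k κ Fk ι}

/-- a function of `𝔏(M D₀ - E)` with the value `1` at the node `i`, for `E` a sum of ordinary
places. -/
theorem GraphType.exists_node_unit_list (T : GraphType G) (i : ι) (l : List (Place K F))
    (hl : ∀ P ∈ l, T.r P ≠ none) :
    ∃ (M : ℕ) (z : F), G.toGraphCore.IsInt (M • G.D₀ - Push.listDiv l) z ∧
      ValAt (G.s₁ i) ((G.S (G.src i)).red z) 1 ∧ ValAt (G.s₂ i) ((G.S (G.tgt i)).red z) 1 := by
  induction l with
  | nil =>
    refine ⟨0, 1, ⟨?_, fun c => one_mem _⟩, ?_, ?_⟩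
    · rw [zero_smul, Push.listDiv_nil, sub_zero]
      exact one_mem_riemannRochSpace_of_nonneg (le_refl (0 : Divisor K F))
    · rw [(G.S (G.src i)).red_one]
      exact nd_valAt_one _
    · rw [(G.S (G.tgt i)).red_one]
      exact nd_valAt_one _
  | cons P l ih =>
    obtain ⟨M, z, hz, hz1, hz2⟩ := ih fun P' hP' => hl P' (List.mem_cons_of_mem _ hP')
    obtain ⟨X, hX⟩ := Option.ne_none_iff_exists'.mp (hl P List.mem_cons_self)
    obtain ⟨m, h, hh, hh1, hh2⟩ := T.node_unit P X hX i
    refine ⟨m + M, h * z, ?_, ?_, ?_⟩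
    · have e : (m + M) • G.D₀ - Push.listDiv (P :: l)
          = (m • G.D₀ - Finsupp.single P 1) + (M • G.D₀ - Push.listDiv l) := by
        rw [Push.listDiv_cons, add_smul]
        abel
      rw [e]
      exact ⟨mul_mem_riemannRochSpace_add hh.1 hz.1, fun c => mul_mem (hh.2 c) (hz.2 c)⟩
    · rw [(G.S (G.src i)).red_mul (hh.2 _) (hz.2 _)]
      have := hh1.mul hz1
      rwa [one_mul] at this
    · rw [(G.S (G.tgt i)).red_mul (hh.2 _) (hz.2 _)]
      have := hh2.mul hz2
      rwa [one_mul] at this

/-- the poles of a function without poles in the annuli are bounded by a sum of ordinary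
places. -/
theorem GraphType.exists_pole_list [Nonempty κ] (T : GraphType G) {f : F}
    (hf : ∀ P, T.r P = none → 0 ≤ P.ord f) :
    ∃ l : List (Place K F), (∀ P ∈ l, T.r P ≠ none) ∧ f ∈ riemannRochSpace (Push.listDiv l) := by
  classical
  obtain ⟨c₀⟩ := ‹Nonempty κ›
  obtain ⟨lp, lm, lp', lm', h1, h2, h3, h4, h5, -⟩ :=
    Push.exists_lists (fun P => T.r P ≠ none) (divOf (G.S c₀).hF f)
  refine ⟨lm, h2, ?_⟩
  rw [mem_riemannRochSpace_iff]
  intro v
  rcases eq_or_ne f 0 with hf0 | hf0
  · exact Or.inl hf0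
  right
  have hv : v.ord f = Push.listDiv lp v - Push.listDiv lm v + Push.listDiv lp' v
      - Push.listDiv lm' v := by
    rw [← divOf_apply (G.S c₀).hF f v, h5]
    simp only [Finsupp.sub_apply, Finsupp.add_apply]
  by_cases hr : T.r v = none
  · have hm : Push.listDiv lm v = 0 :=
      nd_listDiv_apply_of_not_mem lm v (fun h => h2 v h hr)
    rw [hm, neg_zero]
    exact hf v hr
  · have hm' : Push.listDiv lm' v = 0 :=
      nd_listDiv_apply_of_not_mem lm' v (fun h => h4 v h hr)
    have hp := Finsupp.le_def.mp (Push.listDiv_nonneg lp) v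
    have hp' := Finsupp.le_def.mp (Push.listDiv_nonneg lp') v
    rw [Finsupp.zero_apply] at hp hp'
    rw [hv, hm']
    omega

/-- **S8, the NODE CONDITION.** -/
theorem GraphType.node [Nonempty κ] (T : GraphType G) : T.Node := by
  intro f hint hf i
  obtain ⟨l, hl, hfl⟩ := T.exists_pole_list hf
  obtain ⟨M, z, hz, hz1, hz2⟩ := T.exists_node_unit_list i l hl
  have hfz : f * z ∈ riemannRochSpace (M • G.D₀) := by
    have := mul_mem_riemannRochSpace_add hfl hz.1
    rwa [add_sub_cancel] at this
  have hseed := G.seed M (f * z) hfz (fun c => mul_mem (hint c) (hz.2 c))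
  obtain ⟨c, hc1, hc2⟩ := hseed.2 i
  beta_reduce at hc1 hc2
  rw [(G.S (G.src i)).red_mul (hint _) (hz.2 _)] at hc1
  rw [(G.S (G.tgt i)).red_mul (hint _) (hz.2 _)] at hc2
  have hv1 := nd_valAt_of_mul hc1 hz1
  have hv2 := nd_valAt_of_mul hc2 hz2
  exact ⟨hv1.ord_nonneg, hv2.ord_nonneg, c, hv1, hv2⟩

end Fermat.Agent.BadRedG
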