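import Mathlib
import Fermat.Agent.Lib.BadRed.Graph.Deuring.TypeDef
import Fermat.Agent.Lib.BadRed.Graph.NSLift
import Fermat.Agent.Lib.BadRed.Nodal.Deuring2.RRExist

set_option autoImplicit false
set_option linter.unusedSectionVars false

/-!
# Cluster G (S36), G-DEU: every smooth point of the special fibre lifts (helper7)

Port of `NodalType.r_surj₁` (cluster T, `Nodal/Deuring2/Assembly.lean`) to a finite family of
components: `GraphType.rSurj T hl hp : T.RSurj`, from (LIFT) and `Push` applied to a function of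
`⋂ O_c` whose reduction on the component `c` has order `≠ 0` at `Q`.
-/

noncomputable section

open AlgebraicCurve Fermat.Agent.RR Fermat.Agent.Deuring

namespace Fermat.Agent.BadRedG

open Fermat.Agent.BadRed

variable {K F k : Type*} [Field K] [Field F] [Algebra K F] [Field k]
  {κ : Type*} {Fk : κ → Type*} [∀ c, Field (Fk c)] [∀ c, Algebra k (Fk c)] {ι : Type*}

open Classical in
/-- the branches of the nodes of a core, as a finite set of points of the special fibre. -/
def GraphCore.brFinset [Fintype ι] (C : GraphCore K F k κ Fk ι) : Finset (Σ c, Place k (Fk c)) :=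
  (Finset.univ.image fun i => (⟨C.src i, C.s₁ i⟩ : Σ c, Place k (Fk c))) ∪
    (Finset.univ.image fun i => (⟨C.tgt i, C.s₂ i⟩ : Σ c, Place k (Fk c)))

theorem GraphCore.mem_brFinset [Fintype ι] (C : GraphCore K F k κ Fk ι)
    {X : Σ c, Place k (Fk c)} :
    X ∈ C.brFinset ↔ (∃ i, X = ⟨C.src i, C.s₁ i⟩) ∨ (∃ i, X = ⟨C.tgt i, C.s₂ i⟩) := by
  classical
  unfold GraphCore.brFinset
  rw [Finset.mem_union, Finset.mem_image, Finset.mem_image]
  constructor
  · rintro (⟨i, -, h⟩ | ⟨i, -, h⟩)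
    · exact Or.inl ⟨i, h.symm⟩
    · exact Or.inr ⟨i, h.symm⟩
  · rintro (⟨i, h⟩ | ⟨i, h⟩)
    · exact Or.inl ⟨i, Finset.mem_univ _, h.symm⟩
    · exact Or.inr ⟨i, Finset.mem_univ _, h.symm⟩

theorem GraphCore.card_brFinset_le [Fintype ι] (C : GraphCore K F k κ Fk ι) :
    C.brFinset.card ≤ 2 * Fintype.card ι := by
  classical
  unfold GraphCore.brFinset
  refine (Finset.card_union_le _ _).trans ?_
  have h1 := Finset.card_image_le (s := (Finset.univ : Finset ι))
    (f := fun i => (⟨C.src i, C.s₁ i⟩ : Σ c, Place k (Fk c)))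
  have h2 := Finset.card_image_le (s := (Finset.univ : Finset ι))
    (f := fun i => (⟨C.tgt i, C.s₂ i⟩ : Σ c, Place k (Fk c)))
  rw [Finset.card_univ] at h1 h2
  omega

/-- interpolation on the component `c`: a function of `L(R)` with prescribed values at the
branches of the nodes on `c` and exact orders `- R Q` on a finite set `T` of smooth points. -/
theorem GraphCore.exists_interp_br [Fintype ι] [Infinite k] (C : GraphCore K F k κ Fk ι)
    {c : κ} (hRR : IsRRField k (Fk c)) (R : Divisor k (Fk c))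
    (hR : ∀ Q, (⟨c, Q⟩ : Σ c, Place k (Fk c)) ∈ C.brFinset → R Q = 0)
    (T : Finset (Place k (Fk c)))
    (hT : ∀ Q ∈ T, (⟨c, Q⟩ : Σ c, Place k (Fk c)) ∉ C.brFinset)
    (hdeg : 2 * (genusFF k (Fk c) : ℤ) + 2 * Fintype.card ι ≤ Divisor.degree R) (v : k) :
    ∃ a ∈ riemannRochSpace R, a ≠ 0 ∧
      (∀ Q, (⟨c, Q⟩ : Σ c, Place k (Fk c)) ∈ C.brFinset → ValAt Q a v) ∧
        ∀ Q ∈ T, Q.ord a = -R Q := by
  classical
  set Z : Finset (Place k (Fk c)) := sigmaFibre C.brFinset c with hZ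
  have hcard : (Fintype.card ↥Z : ℤ) ≤ 2 * Fintype.card ι := by
    rw [Fintype.card_coe]
    exact_mod_cast (card_sigmaFibre_le _ c).trans C.card_brFinset_le
  obtain ⟨a, ha, ha0, hav, haT⟩ := exists_interpolation_exact hRR
    (fun i : ↥Z => (i : Place k (Fk c))) Subtype.val_injective R
    (fun i => hR _ (mem_sigmaFibre.mp i.2)) T
    (fun Q hQ i hi => hT Q hQ (mem_sigmaFibre.mp (hi ▸ i.2)))
    (by omega) (fun _ => v)
  exact ⟨a, ha, ha0, fun Q hQ => hav ⟨Q, mem_sigmaFibre.mpr hQ⟩, haT⟩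

variable [Fintype κ] [Fintype ι] {G : GraphSeed K F k κ Fk ι}

/-- **S7**: every smooth point of the special fibre lifts. -/
theorem GraphType.rSurj [Infinite k] (T : GraphType G) (hl : G.HasLift) (hp : T.Push) :
    T.RSurj := by
  classical
  intro c Q hQ₁ hQ₂
  obtain ⟨m₀, hm₀⟩ := hl
  set m : ℕ := max m₀ (2 * (∑ c, genusFF k (Fk c)) + 2 * Fintype.card ι + 2) with hm
  have hm1 : m₀ ≤ m := le_max_left _ _
  have hm2 : 2 * (∑ c, genusFF k (Fk c)) + 2 * Fintype.card ι + 2 ≤ m := le_max_right _ _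
  have hgc : ∀ c, genusFF k (Fk c) ≤ ∑ c, genusFF k (Fk c) := fun c =>
    Finset.single_le_sum (f := fun c => genusFF k (Fk c)) (fun _ _ => Nat.zero_le _)
      (Finset.mem_univ c)
  have hdegm : ∀ c', (2 * (genusFF k (Fk c')) + 2 * Fintype.card ι + 2 : ℤ) ≤
      Divisor.degree (m • G.R c') := by
    intro c'
    rw [map_nsmul, nsmul_eq_mul]
    have h3 : (m : ℤ) ≤ m * Divisor.degree (G.R c') := by
      have := Int.natCast_nonneg m
      have := G.R_pos c'
      nlinarith
    have h4 : (2 * (genusFF k (Fk c')) + 2 * Fintype.card ι + 2 : ℤ) ≤ m := by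
      have := hgc c'
      have : 2 * (genusFF k (Fk c')) + 2 * Fintype.card ι + 2 ≤ m := by omega
      exact_mod_cast this
    omega
  have hbr : ∀ c' (Q' : Place k (Fk c')),
      (⟨c', Q'⟩ : Σ c, Place k (Fk c)) ∈ G.toGraphCore.brFinset → (m • G.R c') Q' = 0 := by
    intro c' Q' hQ'
    rw [Finsupp.smul_apply]
    rcases G.toGraphCore.mem_brFinset.mp hQ' with ⟨i, hi⟩ | ⟨i, hi⟩
    · rw [(congrArg (fun X : Σ c, Place k (Fk c) => G.R X.1 X.2) hi).trans (G.R_node₁ i),
        smul_zero]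
    · rw [(congrArg (fun X : Σ c, Place k (Fk c) => G.R X.1 X.2) hi).trans (G.R_node₂ i),
        smul_zero]
  have hQsm : (⟨c, Q⟩ : Σ c, Place k (Fk c)) ∉ G.toGraphCore.brFinset := by
    intro h
    rcases G.toGraphCore.mem_brFinset.mp h with ⟨i, hi⟩ | ⟨i, hi⟩
    · exact hQ₁ i hi
    · exact hQ₂ i hi
  -- the function on the component `c`
  obtain ⟨a, ha, ha0, hav, haT⟩ := G.toGraphCore.exists_interp_br (G.S c).hFk
    (m • G.R c - Finsupp.single Q 1)
    (fun Q' hQ' => by
      have hne : Q ≠ Q' := fun h => hQsm (by rw [h]; exact hQ')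
      rw [Finsupp.sub_apply, hbr c Q' hQ', Finsupp.single_eq_of_ne' hne, sub_zero])
    {Q} (fun Q' hQ' => by rw [Finset.mem_singleton.mp hQ']; exact hQsm)
    (by
      have := hdegm c
      rw [map_sub, degree_single_one (G.S c).hFk]
      omega) 1
  have haL : a ∈ riemannRochSpace (m • G.R c) := by
    refine riemannRochSpace_mono ?_ ha
    rw [sub_le_self_iff]
    intro v
    rw [Finsupp.zero_apply]
    by_cases hv : Q = v
    · subst hv
      rw [Finsupp.single_eq_same]
      exact zero_le_one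
    · rw [Finsupp.single_eq_of_ne' hv]
  -- the functions on the other components
  have hoth : ∀ c', ∃ b ∈ riemannRochSpace (m • G.R c'), b ≠ 0 ∧
      ∀ Q', (⟨c', Q'⟩ : Σ c, Place k (Fk c)) ∈ G.toGraphCore.brFinset → ValAt Q' b 1 := by
    intro c'
    obtain ⟨b, hb, hb0, hbv, -⟩ := G.toGraphCore.exists_interp_br (G.S c').hFk (m • G.R c')
      (hbr c') ∅ (fun Q' hQ' => absurd hQ' (Finset.notMem_empty _))
      (by have := hdegm c'; omega) 1
    exact ⟨b, hb, hb0, hbv⟩
  choose b hbL hb0 hbv using hoth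
  -- the tuple
  set y : ∀ c, Fk c := Function.update b c a with hy
  have hyc : y c = a := Function.update_self _ _ _
  have hyc' : ∀ c', c' ≠ c → y c' = b c' := fun c' hc' => Function.update_of_ne hc' _ _
  have hyL : ∀ c', y c' ∈ riemannRochSpace (m • G.R c') := by
    intro c'
    by_cases hc : c' = c
    · subst hc; rw [hyc]; exact haL
    · rw [hyc' c' hc]; exact hbL c'
  have hyv : ∀ c' Q', (⟨c', Q'⟩ : Σ c, Place k (Fk c)) ∈ G.toGraphCore.brFinset →
      ValAt Q' (y c') 1 := by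
    intro c' Q' hQ'
    by_cases hc : c' = c
    · subst hc; rw [hyc]; exact hav Q' hQ'
    · rw [hyc' c' hc]; exact hbv c' Q' hQ'
  have hy_mem : y ∈ graphRR G.src G.tgt G.s₁ G.s₂ (fun c => m • G.R c) :=
    ⟨hyL, fun i => ⟨1, hyv _ _ (G.toGraphCore.mem_brFinset.mpr (Or.inl ⟨i, rfl⟩)),
      hyv _ _ (G.toGraphCore.mem_brFinset.mpr (Or.inr ⟨i, rfl⟩))⟩⟩
  obtain ⟨u, hu, huy⟩ := hm₀ m hm1 y hy_mem
  have hua : (G.S c).red u = a := (congrFun huy c).trans hyc
  have hred : (G.S c).red u ≠ 0 := by rw [hua]; exact ha0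
  have hpu := hp c u (hu.2 c) ((G.S c).inv_mem_of_red_ne_zero hred)
    ((G.S c).ne_zero_of_red_ne_zero hred) Q hQ₁ hQ₂
  have hord : Q.ord a = 1 - (m • G.R c) Q := by
    rw [haT Q (Finset.mem_singleton_self Q), Finsupp.sub_apply, Finsupp.single_eq_same]
    ring
  have hne : Q.ord ((G.S c).red u) ≠ 0 := by
    rw [hua, hord, Finsupp.smul_apply, nsmul_eq_mul]
    have h0 := Finsupp.le_def.mp (G.R_nonneg c) Q
    rw [Finsupp.zero_apply] at h0
    have hm2' : (2 : ℤ) ≤ m := by
      have : 2 ≤ m := by omega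
      exact_mod_cast this
    rcases eq_or_lt_of_le h0 with h | h
    · rw [← h, mul_zero]
      norm_num
    · have : (m : ℤ) ≤ m * G.R c Q := by nlinarith
      omega
  by_contra hcon
  push Not at hcon
  apply hne
  rw [← hpu]
  apply Finsupp.mapDomain_notin_range
  rintro ⟨P, hP⟩
  exact hcon P hP

end Fermat.Agent.BadRedG
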