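import Mathlib
import Fermat.Agent.Lib.BadRed.Graph.Deuring.RSurj
import Fermat.Agent.Lib.BadRed.Graph.Deuring.Node
import Fermat.Agent.Lib.BadRed.Graph.Deuring.RRDim
import Fermat.Agent.Lib.BadRed.Graph.KeyJacobi
import Fermat.Agent.Lib.BadRed.Graph.NSLift

set_option autoImplicit false

/-!
# Cluster G, graph Deuring construction: ASSEMBLY  `GraphType + Push ⟹ GraphSetup` with all exports

For a seed `G`, a reduction map `T : GraphType G` (`Type.lean`) and its push statement
`hp : T.Push` (`Push*.lean`):

* `GraphType.setup T hp : GraphSetup K F k κ Fk ι` : the graph reduction package, with the SAME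
  `S src tgt s₁ s₂` (definitionally) and `r = T.r`;
* `GraphType.setup_genusRel` : the genus relation;
* `GraphType.setup_hasLift` : (LIFT) for `G.D₀`, `G.R`;
* `GraphType.setup_supp` : the places of `supp D₀` reduce into the supports of the `R c`;
* `GraphType.setup_isOrdDiv_D₀` : the seed divisor is ordinary;
* `GraphType.setup_key` : **the graph KEY LEMMA** `GraphKeyStatement (T.setup hp)`
  (`k` algebraically closed).

The final file `Main.lean` applies this to `G.graphType` and `GraphType.push`.
-/

noncomputable section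

open AlgebraicCurve Fermat.Agent.RR Fermat.Agent.Deuring

namespace Fermat.Agent.BadRedG

open Fermat.Agent.BadRed

variable {K F k : Type*} [Field K] [Field F] [Algebra K F] [Field k]
  {κ : Type*} {Fk : κ → Type*} [∀ c, Field (Fk c)] [∀ c, Algebra k (Fk c)] {ι : Type*}
  [Fintype κ] [Fintype ι] {G : GraphSeed K F k κ Fk ι}

/-- **The graph reduction package of a seed.** -/
def GraphType.setup [Infinite k] [Nonempty κ] (T : GraphType G) (hp : T.Push) :
    GraphSetup K F k κ Fk ι :=
  T.toGraphSetup (T.rSurj G.hasLift hp) hp T.node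

section

variable [Infinite k] [Nonempty κ] (T : GraphType G) (hp : T.Push)

@[simp] theorem GraphType.setup_S : (T.setup hp).S = G.S := rfl

@[simp] theorem GraphType.setup_src : (T.setup hp).src = G.src := rfl

@[simp] theorem GraphType.setup_tgt : (T.setup hp).tgt = G.tgt := rfl

@[simp] theorem GraphType.setup_s₁ : (T.setup hp).s₁ = G.s₁ := rfl

@[simp] theorem GraphType.setup_s₂ : (T.setup hp).s₂ = G.s₂ := rfl

@[simp] theorem GraphType.setup_r : (T.setup hp).r = T.r := rfl

/-- the genus relation. -/
theorem GraphType.setup_genusRel : (T.setup hp).GenusRel :=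
  G.genus_eq

/-- (LIFT). -/
theorem GraphType.setup_hasLift : (T.setup hp).HasLift G.D₀ G.R :=
  T.toGraphSetup_hasLift _ _ _ G.hasLift

/-- (SUPP): the places of the support of `D₀` reduce into the supports of the `R c`. -/
theorem GraphType.setup_supp (P : Place K F) (hP : G.D₀ P ≠ 0) :
    ∃ (c : κ) (Q : Place k (Fk c)), (T.setup hp).r P = some ⟨c, Q⟩ ∧ G.R c Q ≠ 0 :=
  T.supp P hP

/-- the seed divisor is ordinary. -/
theorem GraphType.setup_isOrdDiv_D₀ : (T.setup hp).IsOrdDiv G.D₀ := by
  intro P hP
  obtain ⟨c, Q, h, -⟩ := T.setup_supp hp P hP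
  exact ⟨_, h⟩

/-- the multiples of the seed divisor are ordinary. -/
theorem GraphType.setup_isOrdDiv_smul_D₀ (m : ℕ) : (T.setup hp).IsOrdDiv (m • G.D₀) := by
  intro P hP
  refine T.setup_isOrdDiv_D₀ hp P ?_
  intro h0
  apply hP
  rw [Finsupp.smul_apply, h0, smul_zero]

end

/-- **The graph KEY LEMMA** for the package of a seed: the kernel of reduction has no
`m`-torsion, `m` a unit of `A`. -/
theorem GraphType.setup_key [IsAlgClosed k] [Infinite k] [Nonempty κ] (T : GraphType G)
    (hp : T.Push) : GraphKeyStatement (T.setup hp) :=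
  graphKeyStatement_of_ns _ (GJ.graphKeyOfNS _)
    (fun hg => (T.setup hp).nonempty_graphNS_of_lift hg G.D₀ G.R G.R_pos G.R_node₁ G.R_node₂
      (T.setup_hasLift hp))

end Fermat.Agent.BadRedG
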