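import Mathlib
import Fermat.Agent.Lib.BadRed.Graph.RedSpaceG
import Fermat.Agent.Lib.BadRed.Nodal.Deuring2.Push

set_option autoImplicit false
set_option linter.unusedSectionVars false
set_option linter.style.haveILetI false

/-!
# Cluster G, graph Deuring, steps S4 / S5: the PUSH inequality at a smooth point (helper18)

Port of `Nodal/Deuring2/Push.lean` to a family of components.  ABSTRACT form, for one component and
one point of it.  Data: a graph core `C`, a divisor `D₀` of `F`, a `k`-algebra homomorphism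
`π : (∀ c, Fk c) → Fk'` (`Pi.evalAlgHom`), a place `Q` of `Fk'`, an integer `ρ` (`= R Q`), and a
set `toQ` of places of `F` (the places REDUCING TO `Q`).  Hypotheses (`GPushHyp`):

* `base`   : `π (V(m D₀)) ⊂ {x | ord_Q x ≥ - m ρ}`;
* `exact₀` : for `m ≥ m₁` some element of `V(m D₀)` has order exactly `- m ρ` at `Q`;
* `pole`   : for `P ∈ toQ` some element of some `V(m D₀ + P)` has order exactly `- m ρ - 1`;
* `away`   : for `P ∉ toQ` some element of some `V(m D₀ - P)` has order exactly `- m ρ`.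

Results:
* `GPushHyp.sum_ord_le` (**S4**) : for `g ∈ ⋂ O_c` with `π (red g) ≠ 0`:
  `∑_{P ∈ toQ} ord_P g ≤ ord_Q (π (red g))`;
* `GPushHyp.sum_ord_eq` (**S5**) : equality if `g⁻¹ ∈ ⋂ O_c` as well.
-/

noncomputable section

open AlgebraicCurve Fermat.Agent.RR Fermat.Agent.Deuring

namespace Fermat.Agent.BadRedG

open Fermat.Agent.BadRed Fermat.Agent.BadRed.Push

variable {K F k : Type*} [Field K] [Field F] [Algebra K F] [Field k]
  {κ : Type*} {Fk : κ → Type*} [∀ c, Field (Fk c)] [∀ c, Algebra k (Fk c)] {ι : Type*}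
  [Finite κ] [Nonempty κ]

/-- `1 ∈ V(0)`. -/
theorem GPush.one_mem_V_zero (C : GraphCore K F k κ Fk ι) :
    (1 : ∀ c, Fk c) ∈ C.V 0 := by
  have h := C.redAll_mem_V (D := 0) (f := 1)
    ⟨one_mem_riemannRochSpace_of_nonneg (le_refl (0 : Divisor K F)), fun _ => one_mem _⟩
  rw [C.redAll_one] at h
  exact h

/-- `V(D) ⊂ V(D + P)` has codimension at most one. -/
theorem GPush.finrank_V_add_single_le (C : GraphCore K F k κ Fk ι) (D : Divisor K F)
    (P : Place K F) :
    Module.finrank k (C.V (D + Finsupp.single P 1)) ≤ Module.finrank k (C.V D) + 1 := by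
  obtain ⟨c₀⟩ := ‹Nonempty κ›
  haveI : Nonempty κ := ⟨c₀⟩
  rw [C.finrank_V, C.finrank_V]
  exact ell_add_single_le (C.S c₀).hF D P

/-- **Hypotheses of the push inequality** at the point `Q` of the component `π`. -/
structure GPushHyp (C : GraphCore K F k κ Fk ι) (D₀ : Divisor K F) {Fk' : Type*} [Field Fk']
    [Algebra k Fk'] (π : (∀ c, Fk c) →ₐ[k] Fk') (Q : Place k Fk') (ρ : ℤ)
    (toQ : Place K F → Prop) : Prop where
  /-- the reduction of `m D₀` has multiplicity at most `m ρ` at `Q` -/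
  base : ∀ (m : ℕ) (y : ∀ c, Fk c), y ∈ C.V (m • D₀) → π y ∈ ordGE Q (-(m * ρ))
  /-- and exactly `m ρ` for large `m` -/
  exact₀ : ∃ m₁ : ℕ, ∀ m : ℕ, m₁ ≤ m →
    ∃ u ∈ C.V (m • D₀), π u ≠ 0 ∧ Q.ord (π u) = -(m * ρ)
  /-- a place reducing to `Q` produces a pole at `Q` -/
  pole : ∀ P, toQ P → ∃ (m : ℕ) (w : ∀ c, Fk c),
    w ∈ C.V (m • D₀ + Finsupp.single P 1) ∧ π w ≠ 0 ∧ Q.ord (π w) = -(m * ρ) - 1
  /-- a place not reducing to `Q` can be avoided -/
  away : ∀ P, ¬ toQ P → ∃ (m : ℕ) (h : ∀ c, Fk c),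
    h ∈ C.V (m • D₀ - Finsupp.single P 1) ∧ π h ≠ 0 ∧ Q.ord (π h) = -(m * ρ)

namespace GPushHyp

variable {C : GraphCore K F k κ Fk ι} {D₀ : Divisor K F} {Fk' : Type*} [Field Fk']
  [Algebra k Fk'] {π : (∀ c, Fk c) →ₐ[k] Fk'} {Q : Place k Fk'} {ρ : ℤ} {toQ : Place K F → Prop}

/-- (A1) elements with a pole of exact order along a sum of places reducing to `Q`. -/
theorem exists_exact_pole (H : GPushHyp C D₀ π Q ρ toQ) (l : List (Place K F))
    (hl : ∀ P ∈ l, toQ P) :
    ∃ (m : ℕ) (y : ∀ c, Fk c), y ∈ C.V (m • D₀ + listDiv l) ∧ π y ≠ 0 ∧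
      Q.ord (π y) = -(m * ρ) - l.length := by
  induction l with
  | nil =>
    refine ⟨0, 1, ?_, ?_, ?_⟩
    · rw [zero_smul, listDiv_nil, add_zero]
      exact GPush.one_mem_V_zero C
    · rw [map_one]
      exact one_ne_zero
    · rw [map_one, Place.ord_one]
      simp
  | cons P l ih =>
    obtain ⟨m, y, hy, hy0, hyo⟩ := ih fun P' hP' => hl P' (List.mem_cons_of_mem _ hP')
    obtain ⟨m', w, hw, hw0, hwo⟩ := H.pole P (hl P List.mem_cons_self)
    refine ⟨m + m', y * w, ?_, ?_, ?_⟩
    · have e : (m + m') • D₀ + listDiv (P :: l)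
          = (m • D₀ + listDiv l) + (m' • D₀ + Finsupp.single P 1) := by
        rw [listDiv_cons, add_smul]
        abel
      rw [e]
      exact C.mul_mem_V hy hw
    · rw [map_mul]
      exact mul_ne_zero hy0 hw0
    · rw [map_mul, Q.ord_mul hy0 hw0, hyo, hwo, List.length_cons]
      push_cast
      ring

/-- elements of exact order of every large level. -/
theorem exists_exact_level (H : GPushHyp C D₀ π Q ρ toQ) :
    ∃ m₁ : ℕ, ∀ m : ℕ, m₁ ≤ m → ∃ u ∈ C.V (m • D₀), π u ≠ 0 ∧ Q.ord (π u) = -(m * ρ) :=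
  H.exact₀

/-- (A2) the pole order along a sum of places reducing to `Q` is at most the number of
places. -/
theorem pole_le (H : GPushHyp C D₀ π Q ρ toQ) (l : List (Place K F))
    (hl : ∀ P ∈ l, toQ P) (m : ℕ) (z : ∀ c, Fk c) (hz : z ∈ C.V (m • D₀ + listDiv l)) :
    π z ∈ ordGE Q (-(m * ρ) - l.length) := by
  induction l generalizing m z with
  | nil =>
    rw [listDiv_nil, add_zero] at hz
    have := H.base m z hz
    simpa using this
  | cons P l ih =>
    have hl' : ∀ P' ∈ l, toQ P' := fun P' hP' => hl P' (List.mem_cons_of_mem _ hP')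
    obtain ⟨mv, v, hv, hv0, hvo⟩ := H.exists_exact_pole (P :: l) hl
    obtain ⟨m₁, hm₁⟩ := H.exact₀
    obtain ⟨u, hu, hu0, huo⟩ := hm₁ (mv + m₁) (Nat.le_add_left _ _)
    obtain ⟨u', hu', hu'0, hu'o⟩ := hm₁ (m + m₁) (Nat.le_add_left _ _)
    -- everything at the level `M = m + mv + m₁`
    set M : ℕ := m + mv + m₁ with hM
    set D : Divisor K F := M • D₀ + listDiv l with hD
    have eM : M • D₀ + listDiv (P :: l) = D + Finsupp.single P 1 := by
      rw [hD, listDiv_cons]
      abel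
    have hz' : z * u ∈ C.V (D + Finsupp.single P 1) := by
      have e : D + Finsupp.single P 1 = (m • D₀ + listDiv (P :: l)) + (mv + m₁) • D₀ := by
        rw [← eM, hM, add_smul, add_smul, add_smul]
        abel
      rw [e]
      exact C.mul_mem_V hz hu
    have hv' : v * u' ∈ C.V (D + Finsupp.single P 1) := by
      have e : D + Finsupp.single P 1 = (mv • D₀ + listDiv (P :: l)) + (m + m₁) • D₀ := by
        rw [← eM, hM, add_smul, add_smul, add_smul]
        abel
      rw [e]
      exact C.mul_mem_V hv hu'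
    have hvu0 : π (v * u') ≠ 0 := by
      rw [map_mul]
      exact mul_ne_zero hv0 hu'0
    have hvuo : Q.ord (π (v * u')) = -(M * ρ) - (l.length + 1) := by
      rw [map_mul, Q.ord_mul hv0 hu'0, hvo, hu'o, List.length_cons, hM]
      push_cast
      ring
    have hvD : v * u' ∉ C.V D := by
      intro hmem
      have h1 := le_of_mem_ordGE (ih hl' M (v * u') hmem) hvu0
      rw [hvuo] at h1
      omega
    have := C.finite_V (D + Finsupp.single P 1)
    obtain ⟨c, hc⟩ := exists_sub_smul_mem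
      (C.V_mono (Fermat.Agent.RR.le_add_single D P)) (GPush.finrank_V_add_single_le C D P) hv' hvD hz'
    -- `π (z u) = π (z u - c v u') + c π (v u')`
    have h1 : π (z * u - c • (v * u')) ∈ ordGE Q (-(M * ρ) - (l.length + 1)) :=
      ordGE_mono (by omega) (ih hl' M _ hc)
    have h2 : c • π (v * u') ∈ ordGE Q (-(M * ρ) - (l.length + 1)) :=
      Submodule.smul_mem _ c (mem_ordGE_of_eq hvuo)
    have h3 : π (z * u) ∈ ordGE Q (-(M * ρ) - (l.length + 1)) := by
      have e : π (z * u) = π (z * u - c • (v * u')) + c • π (v * u') := by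
        rw [map_sub, map_smul]
        abel
      rw [e]
      exact Submodule.add_mem _ h1 h2
    rw [map_mul] at h3
    have h4 := mem_ordGE_of_mul h3 hu0 huo
    have e : -(↑M * ρ) - (↑l.length + 1) - -(↑(mv + m₁) * ρ)
        = -(↑m * ρ) - ↑(P :: l).length := by
      rw [hM, List.length_cons]
      push_cast
      ring
    rw [e] at h4
    exact h4

/-- (B) zeros and poles along places reducing to `Q`. -/
theorem zero_pole_le (H : GPushHyp C D₀ π Q ρ toQ) (lp lm : List (Place K F))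
    (hlp : ∀ P ∈ lp, toQ P) (hlm : ∀ P ∈ lm, toQ P) (m : ℕ) (z : ∀ c, Fk c)
    (hz : z ∈ C.V (m • D₀ + listDiv lm - listDiv lp)) :
    π z ∈ ordGE Q (-(m * ρ) - lm.length + lp.length) := by
  obtain ⟨m', y, hy, hy0, hyo⟩ := H.exists_exact_pole lp hlp
  have hzy : z * y ∈ C.V ((m + m') • D₀ + listDiv lm) := by
    have e : (m + m') • D₀ + listDiv lm
        = (m • D₀ + listDiv lm - listDiv lp) + (m' • D₀ + listDiv lp) := by
      rw [add_smul]
      abel
    rw [e]
    exact C.mul_mem_V hz hy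
  have h1 := H.pole_le lm hlm (m + m') (z * y) hzy
  rw [map_mul] at h1
  have h2 := mem_ordGE_of_mul h1 hy0 hyo
  have e : -(↑(m + m') * ρ) - ↑lm.length - (-(↑m' * ρ) - ↑lp.length)
      = -(↑m * ρ) - ↑lm.length + ↑lp.length := by
    push_cast
    ring
  rw [e] at h2
  exact h2

/-- (C) a function vanishing along a sum of places not reducing to `Q`, of exact order at
`Q`. -/
theorem exists_away (H : GPushHyp C D₀ π Q ρ toQ) (l : List (Place K F))
    (hl : ∀ P ∈ l, ¬ toQ P) :
    ∃ (m : ℕ) (h : ∀ c, Fk c), h ∈ C.V (m • D₀ - listDiv l) ∧ π h ≠ 0 ∧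
      Q.ord (π h) = -(m * ρ) := by
  induction l with
  | nil =>
    refine ⟨0, 1, ?_, ?_, ?_⟩
    · rw [zero_smul, listDiv_nil, sub_zero]
      exact GPush.one_mem_V_zero C
    · rw [map_one]
      exact one_ne_zero
    · rw [map_one, Place.ord_one]
      simp
  | cons P l ih =>
    obtain ⟨m, y, hy, hy0, hyo⟩ := ih fun P' hP' => hl P' (List.mem_cons_of_mem _ hP')
    obtain ⟨m', w, hw, hw0, hwo⟩ := H.away P (hl P List.mem_cons_self)
    refine ⟨m + m', y * w, ?_, ?_, ?_⟩
    · have e : (m + m') • D₀ - listDiv (P :: l)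
          = (m • D₀ - listDiv l) + (m' • D₀ - Finsupp.single P 1) := by
        rw [listDiv_cons, add_smul]
        abel
      rw [e]
      exact C.mul_mem_V hy hw
    · rw [map_mul]
      exact mul_ne_zero hy0 hw0
    · rw [map_mul, Q.ord_mul hy0 hw0, hyo, hwo]
      push_cast
      ring

open Classical in
/-- **S4, the PUSH inequality**: for `g ∈ ⋂ O_c` whose reduction on the component `π` is not
zero, the order of the reduction at `Q` is at least the sum of the orders of `g` at the places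
reducing to `Q`. -/
theorem sum_ord_le (H : GPushHyp C D₀ π Q ρ toQ) (hF : IsRRField K F) {g : F}
    (hg : ∀ c, g ∈ (C.S c).Ov) (hπ : π (C.redAll g) ≠ 0) :
    ∑ P ∈ (divOf hF g).support with toQ P, P.ord g ≤ Q.ord (π (C.redAll g)) := by
  have hg0 : g ≠ 0 := by
    rintro rfl
    apply hπ
    rw [C.redAll_zero, map_zero]
  obtain ⟨lp, lm, lp', lm', h1, h2, h3, h4, h5, h6⟩ := exists_lists toQ (divOf hF g)
  have h6' := h6 (divOf hF g).support (le_refl _)
  have hsum : ∑ P ∈ (divOf hF g).support with toQ P, P.ord g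
      = (lp.length : ℤ) - lm.length := by
    rw [h6']
    refine Finset.sum_congr rfl fun P _ => ?_
    rw [divOf_apply]
  rw [hsum]
  obtain ⟨m, h, hh, hh0, hho⟩ := H.exists_away lm' h4
  obtain ⟨f, hf, rfl⟩ := (C.mem_V_iff _).mp hh
  have hf0 : f ≠ 0 := by
    rintro rfl
    apply hh0
    rw [C.redAll_zero]
    exact map_zero π
  -- `f g ∈ L(m D₀ + lm - lp)`
  have hfg : C.IsInt (m • D₀ + listDiv lm - listDiv lp) (f * g) := by
    refine ⟨?_, fun c => mul_mem (hf.2 c) (hg c)⟩
    rw [mem_riemannRochSpace_iff]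
    intro v
    right
    have hfv := (mem_riemannRochSpace_iff.mp hf.1 v).resolve_left hf0
    have hgv : v.ord g = (listDiv lp - listDiv lm + listDiv lp' - listDiv lm' : Divisor K F) v := by
      rw [← h5, divOf_apply]
    have hnn : 0 ≤ (listDiv lp' : Divisor K F) v := listDiv_nonneg lp' v
    rw [v.ord_mul hf0 hg0, hgv]
    simp only [Finsupp.coe_add, Finsupp.coe_sub, Pi.add_apply, Pi.sub_apply] at hfv ⊢
    omega
  have hz := C.redAll_mem_V hfg
  have hmul : C.redAll (f * g) = C.redAll f * C.redAll g := C.redAll_mul hf.2 hg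
  rw [hmul] at hz
  have hB := H.zero_pole_le lp lm h1 h2 m _ hz
  rw [map_mul, mul_comm (π (C.redAll f))] at hB
  have hC := mem_ordGE_of_mul hB hh0 hho
  have hD := le_of_mem_ordGE hC hπ
  omega

open Classical in
/-- **S5, the PUSH equality** for units of all the valuation rings. -/
theorem sum_ord_eq (H : GPushHyp C D₀ π Q ρ toQ) (hF : IsRRField K F) {g : F}
    (hg : ∀ c, g ∈ (C.S c).Ov) (hi : ∀ c, g⁻¹ ∈ (C.S c).Ov) (hg0 : g ≠ 0) :
    ∑ P ∈ (divOf hF g).support with toQ P, P.ord g = Q.ord (π (C.redAll g)) := by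
  have hmul : C.redAll g * C.redAll g⁻¹ = 1 := by
    rw [← C.redAll_mul hg hi, mul_inv_cancel₀ hg0, C.redAll_one]
  have hπmul : π (C.redAll g) * π (C.redAll g⁻¹) = 1 := by
    rw [← map_mul, hmul, map_one]
  have hπ : π (C.redAll g) ≠ 0 := left_ne_zero_of_mul_eq_one hπmul
  have hπ' : π (C.redAll g⁻¹) ≠ 0 := right_ne_zero_of_mul_eq_one hπmul
  apply le_antisymm (H.sum_ord_le hF hg hπ)
  have h1 := H.sum_ord_le hF hi hπ'
  have h2 : Q.ord (π (C.redAll g⁻¹)) = -Q.ord (π (C.redAll g)) := by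
    have := congrArg Q.ord hπmul
    rw [Q.ord_mul hπ hπ', Place.ord_one] at this
    omega
  have h3 : ∑ P ∈ (divOf hF g⁻¹).support with toQ P, P.ord g⁻¹
      = -∑ P ∈ (divOf hF g).support with toQ P, P.ord g := by
    have hs : (divOf hF g⁻¹).support = (divOf hF g).support := by
      rw [divOf_inv, Finsupp.support_neg]
    rw [hs, ← Finset.sum_neg_distrib]
    refine Finset.sum_congr rfl fun P _ => ?_
    rw [P.ord_inv]
  rw [h2, h3] at h1
  omega

end GPushHyp

end Fermat.Agent.BadRedG
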