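import Mathlib
import Fermat.Agent.Lib.BadRed.Graph.Deuring.Push
import Fermat.Agent.Lib.BadRed.Nodal.Deuring2.PushUnit

set_option autoImplicit false
set_option linter.unusedSectionVars false
set_option linter.style.haveILetI false

/-!
# Cluster G, graph Deuring, step S6: the PUSH equality for the units of ONE valuation ring
(helper18)

Port of `Nodal/Deuring2/PushUnit.lean` + the abstract part of `PushTwo.lean` to a family of
components.  `c` is the component, `π = Pi.evalAlgHom k Fk c`, `Q` a place of `Fk c`.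

* `GPushHyp.mapDomain_le`, `GPushHyp.mapDomain_eq` : S4, S5 in the `mapDomain` form;
* `GPushHyp.le_mapDomain_D₀` : `ρ ≤ (r_* D₀)(x)`;
* `GPushHyp.mapDomain_exact` (S4');
* `GPushHyp.divOf_apply_of_exact` (X), `GPushHyp.mapDomain_D₀_eq` (F3);
* `GPushHyp.exists_aux` : for `c' ≠ c` and `a` in the maximal ideal of `A` a function `E` which is
  a unit of every `O_{c''}`, `c'' ≠ c'`, with `E / a` a unit of `O_{c'}`, satisfying push;
* `GPushHyp.push_unit` (**S6**) : `(r_* div g)(x) = ord_Q (red_c g)` for every unit `g` of `O_c`.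
  NEW with respect to cluster T: the other components are treated one after the other
  (induction on the set of components at which `g` is not yet a unit).
-/

noncomputable section

open AlgebraicCurve Fermat.Agent.RR Fermat.Agent.Deuring

namespace Fermat.Agent.BadRedG

open Fermat.Agent.BadRed Fermat.Agent.BadRed.Push

variable {K F k : Type*} [Field K] [Field F] [Algebra K F] [Field k]
  {κ : Type*} {Fk : κ → Type*} [∀ c, Field (Fk c)] [∀ c, Algebra k (Fk c)] {ι : Type*}
  [Finite κ] [Nonempty κ]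

namespace GPushHyp

variable {C : GraphCore K F k κ Fk ι} {D₀ : Divisor K F} {Fk' : Type*} [Field Fk']
  [Algebra k Fk'] {π : (∀ c, Fk c) →ₐ[k] Fk'} {Q : Place k Fk'} {ρ : ℤ}
  {β : Type*} {r : Place K F → β} {x : β}

/-- S4 in the `mapDomain` form. -/
theorem mapDomain_le (H : GPushHyp C D₀ π Q ρ (fun P => r P = x)) (hF : IsRRField K F) {g : F}
    (hg : ∀ c, g ∈ (C.S c).Ov) (hπ : π (C.redAll g) ≠ 0) :
    Finsupp.mapDomain r (divOf hF g) x ≤ Q.ord (π (C.redAll g)) := by
  classical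
  rw [← sum_eq_mapDomain]
  exact H.sum_ord_le hF hg hπ

/-- S5 in the `mapDomain` form. -/
theorem mapDomain_eq (H : GPushHyp C D₀ π Q ρ (fun P => r P = x)) (hF : IsRRField K F) {g : F}
    (hg : ∀ c, g ∈ (C.S c).Ov) (hi : ∀ c, g⁻¹ ∈ (C.S c).Ov) (hg0 : g ≠ 0) :
    Finsupp.mapDomain r (divOf hF g) x = Q.ord (π (C.redAll g)) := by
  classical
  rw [← sum_eq_mapDomain]
  exact H.sum_ord_eq hF hg hi hg0

/-- the multiplicity of `x` in `r_* D₀` is at least `ρ`. -/
theorem le_mapDomain_D₀ (H : GPushHyp C D₀ π Q ρ (fun P => r P = x)) (hF : IsRRField K F) :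
    ρ ≤ Finsupp.mapDomain r D₀ x := by
  obtain ⟨m₁, hm₁⟩ := H.exact₀
  obtain ⟨u, hu, hu0, huo⟩ := hm₁ (m₁ + 1) (Nat.le_succ _)
  obtain ⟨f, hf, rfl⟩ := (C.mem_V_iff _).mp hu
  have hf0 : f ≠ 0 := by
    rintro rfl
    apply hu0
    rw [C.redAll_zero]
    exact map_zero π
  have h1 := H.mapDomain_le hF hf.2 hu0
  have h2 := mapDomain_mono r (neg_le_divOf hF hf.1 hf0) x
  rw [mapDomain_neg_apply, mapDomain_nsmul_apply] at h2
  have h3 : Q.ord (π (C.redAll f)) = -(((m₁ + 1 : ℕ) : ℤ) * ρ) := huo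
  rw [h3] at h1
  have h4 : ((m₁ + 1 : ℕ) : ℤ) * ρ ≤ ((m₁ + 1 : ℕ) : ℤ) * Finsupp.mapDomain r D₀ x := by
    omega
  have h5 : (0 : ℤ) < ((m₁ + 1 : ℕ) : ℤ) := by positivity
  exact le_of_mul_le_mul_left h4 h5

/-- (S4') the push equality for a function of `L(M D₀) ∩ ⋂ O_c` whose reduction has a pole of
exact order `M ρ` at `Q`. -/
theorem mapDomain_exact (H : GPushHyp C D₀ π Q ρ (fun P => r P = x)) (hF : IsRRField K F)
    (hpush₀ : Finsupp.mapDomain r D₀ x ≤ ρ) {M : ℕ} {e : F} (he : C.IsInt (M • D₀) e)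
    (he0 : π (C.redAll e) ≠ 0) (heo : Q.ord (π (C.redAll e)) = -(M * ρ)) :
    Finsupp.mapDomain r (divOf hF e) x = -(M * ρ) := by
  have hf0 : e ≠ 0 := by
    rintro rfl
    apply he0
    rw [C.redAll_zero, map_zero]
  apply le_antisymm
  · rw [← heo]
    exact H.mapDomain_le hF he.2 he0
  · have h2 := mapDomain_mono r (neg_le_divOf hF he.1 hf0) x
    rw [mapDomain_neg_apply, mapDomain_nsmul_apply] at h2
    have h3 : (M : ℤ) * Finsupp.mapDomain r D₀ x ≤ M * ρ :=
      mul_le_mul_of_nonneg_left hpush₀ (Int.natCast_nonneg M)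
    omega

/-- (X) a function of `𝔏(m D₀)` whose reduction has a pole of exact order `m ρ` at `Q` has a
pole of exact order `m D₀(P)` at every place `P` reducing to `Q`. -/
theorem divOf_apply_of_exact {toQ : Place K F → Prop} (H : GPushHyp C D₀ π Q ρ toQ)
    (hF : IsRRField K F) {m : ℕ}
    {f : F} (hf : C.IsInt (m • D₀) f) (hf0 : π (C.redAll f) ≠ 0)
    (hfo : Q.ord (π (C.redAll f)) = -(m * ρ)) {P : Place K F} (hP : toQ P) :
    divOf hF f P = -(m * D₀ P) := by
  classical
  have hfne : f ≠ 0 := by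
    rintro rfl
    apply hf0
    rw [C.redAll_zero, map_zero]
  rw [divOf_apply]
  have hmem := mem_riemannRochSpace_iff.mp hf.1
  have hge : -(m * D₀ P) ≤ P.ord f := by
    have := (hmem P).resolve_left hfne
    rwa [Finsupp.smul_apply, nsmul_eq_mul] at this
  by_contra hne
  have hgt : -(m * D₀ P) + 1 ≤ P.ord f := by
    have : -(m * D₀ P) ≠ P.ord f := fun h => hne h.symm
    omega
  -- `f ∈ L(m D₀ - P)`
  have hf' : C.IsInt (m • D₀ - Finsupp.single P 1) f := by
    refine ⟨?_, hf.2⟩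
    rw [mem_riemannRochSpace_iff]
    intro v
    right
    by_cases hv : v = P
    · subst hv
      rw [Finsupp.sub_apply, Finsupp.smul_apply, nsmul_eq_mul, Finsupp.single_eq_same]
      omega
    · rw [Finsupp.sub_apply, Finsupp.single_eq_of_ne hv, sub_zero]
      exact (hmem v).resolve_left hfne
  obtain ⟨m', w, hw, hw0, hwo⟩ := H.pole P hP
  have h1 : C.redAll f * w ∈ C.V ((m + m') • D₀) := by
    have h := C.mul_mem_V (C.redAll_mem_V hf') hw
    have e : (m • D₀ - Finsupp.single P 1) + (m' • D₀ + Finsupp.single P 1) = (m + m') • D₀ := by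
      rw [add_smul]
      abel
    rw [e] at h
    exact h
  have h2 := H.base (m + m') _ h1
  rw [map_mul] at h2
  have h3 := le_of_mem_ordGE h2 (mul_ne_zero hf0 hw0)
  rw [Q.ord_mul hf0 hw0, hfo, hwo] at h3
  push_cast at h3
  linarith

/-- (F3) `(r_* D₀)(x) = ρ`. -/
theorem mapDomain_D₀_eq (H : GPushHyp C D₀ π Q ρ (fun P => r P = x)) (hF : IsRRField K F)
    {m : ℕ} (hm : 0 < m)
    {u : F} (hu : C.IsInt (m • D₀) u) (hi : ∀ c, u⁻¹ ∈ (C.S c).Ov)
    (hu0 : π (C.redAll u) ≠ 0) (huo : Q.ord (π (C.redAll u)) = -(m * ρ)) :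
    Finsupp.mapDomain r D₀ x = ρ := by
  classical
  have hune : u ≠ 0 := by
    rintro rfl
    apply hu0
    rw [C.redAll_zero, map_zero]
  have h5 := H.mapDomain_eq hF hu.2 hi hune
  rw [huo] at h5
  -- the divisor `div u + m D₀` vanishes at the places reducing to `Q`
  have h6 : Finsupp.mapDomain r (divOf hF u + m • D₀) x = 0 := by
    rw [mapDomain_apply_eq_sum]
    refine Finset.sum_eq_zero fun P hP => ?_
    have hPx : r P = x := (Finset.mem_filter.mp hP).2
    rw [Finsupp.add_apply, H.divOf_apply_of_exact hF hu hu0 huo hPx, Finsupp.smul_apply,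
      nsmul_eq_mul]
    ring
  rw [Finsupp.mapDomain_add, Finsupp.add_apply, mapDomain_nsmul_apply, h5] at h6
  have h7 : (m : ℤ) * Finsupp.mapDomain r D₀ x = m * ρ := by omega
  have hm' : (m : ℤ) ≠ 0 := by exact_mod_cast hm.ne'
  exact mul_left_cancel₀ hm' h7

end GPushHyp

/-! ### the push equality for the units of one valuation ring -/

section Unit

variable {C : GraphCore K F k κ Fk ι} {D₀ : Divisor K F} {c : κ} {Q : Place k (Fk c)} {ρ : ℤ}
  {β : Type*} {r : Place K F → β} {x : β}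

/-- the residue of an element of the maximal ideal of `A`. -/
theorem gp_res_eq_zero (S : ∀ c : κ, ValSetup K F k (Fk c)) (c : κ) {a : K} (ha : a ∈ (S c).A)
    (hai : a⁻¹ ∉ (S c).A) : (S c).res ⟨a, ha⟩ = 0 := by
  obtain ⟨h1, h2⟩ := (S c).res_inv_eq_zero hai
  have e : (⟨a, ha⟩ : (S c).A) = ⟨a⁻¹⁻¹, h1⟩ := Subtype.ext (inv_inv a).symm
  rw [e]
  exact h2

/-- **the auxiliary function**: for `c' ≠ c` and `a ≠ 0` in the maximal ideal of `A` there is a
function `E` which is a unit of every `O_{c''}`, `c'' ≠ c'`, such that `E / a` is a unit of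
`O_{c'}`, and which satisfies the push equality at `Q`. -/
theorem GPushHyp.exists_aux (H : GPushHyp C D₀ (Pi.evalAlgHom k Fk c) Q ρ (fun P => r P = x))
    (hF : IsRRField K F) (hD₀ : 0 ≤ D₀) (hpush₀ : Finsupp.mapDomain r D₀ x ≤ ρ) {c' : κ}
    (hexact : ∃ (m : ℕ) (e₀ : F), C.IsInt (m • D₀) e₀ ∧ (C.S c).red e₀ ≠ 0 ∧
      Q.ord ((C.S c).red e₀) = -(m * ρ) ∧ (C.S c').red e₀ = 0 ∧
      ∀ c'', c'' ≠ c' → (C.S c'').red e₀ ≠ 0)
    {a : K} (ha0 : a ≠ 0) (haA : a ∈ (C.S c').A) (hai : a⁻¹ ∉ (C.S c').A) :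
    ∃ E : F, E ≠ 0 ∧ (∀ c'', c'' ≠ c' → E ∈ (C.S c'').Ov ∧ E⁻¹ ∈ (C.S c'').Ov) ∧
      E * (algebraMap K F a)⁻¹ ∈ (C.S c').Ov ∧ (E * (algebraMap K F a)⁻¹)⁻¹ ∈ (C.S c').Ov ∧
      Finsupp.mapDomain r (divOf hF E) x = Q.ord ((C.S c).red E) := by
  obtain ⟨m, e₀, he₀, he₀0, he₀o, he₀', he₀''⟩ := hexact
  have hcc' : c ≠ c' := by
    rintro rfl
    exact he₀0 he₀'
  have he₀ne : e₀ ≠ 0 := (C.S c).ne_zero_of_red_ne_zero he₀0
  have he₀i : e₀⁻¹ ∉ (C.S c').Ov := ((C.S c').red_eq_zero_iff (he₀.2 c') he₀ne).mp he₀'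
  have ha0' : algebraMap K F a ≠ 0 := (map_ne_zero (algebraMap K F)).mpr ha0
  -- the absolute value of `e₀` at `c'`
  obtain ⟨a₀, ha₀, hs1, hs2⟩ := (C.S c').scale e₀ he₀ne
  have ha₀' : algebraMap K F a₀ ≠ 0 := (map_ne_zero (algebraMap K F)).mpr ha₀
  have ha₀A : a₀ ∈ (C.S c').A := by
    rw [← (C.S c').mem_Ov_iff]
    have e : algebraMap K F a₀ = e₀ * (e₀ * (algebraMap K F a₀)⁻¹)⁻¹ := by
      field_simp
    rw [e]
    exact mul_mem (he₀.2 c') hs2
  have ha₀i : a₀⁻¹ ∉ (C.S c').A := by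
    intro h
    apply he₀i
    have e : e₀⁻¹ = (e₀ * (algebraMap K F a₀)⁻¹)⁻¹ * algebraMap K F a₀⁻¹ := by
      rw [map_inv₀]
      field_simp
    rw [e]
    exact mul_mem hs2 ((C.S c').algebraMap_mem h)
  obtain ⟨j, hj⟩ := C.arch c' a₀ ha₀A ha₀i a⁻¹
  set n : ℕ := j + 1 with hn
  -- `b = a₀ ^ n / a` lies in the maximal ideal of `A`
  set b : K := a₀ ^ n * a⁻¹ with hb
  have hbA : b ∈ (C.S c').A := by
    have e : b = a₀ * (a₀ ^ j * a⁻¹) := by
      rw [hb, hn, pow_succ]
      ring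
    rw [e]
    exact mul_mem ha₀A hj
  have hbi : b⁻¹ ∉ (C.S c').A := by
    intro h
    apply ha₀i
    have e : a₀⁻¹ = b⁻¹ * (a₀ ^ j * a⁻¹) := by
      rw [hb, hn, pow_succ]
      field_simp
    rw [e]
    exact mul_mem h hj
  have hbres : (C.S c').res ⟨b, hbA⟩ = 0 := gp_res_eq_zero C.S c' hbA hbi
  have haA'' : ∀ c'', a ∈ (C.S c'').A := fun c'' => C.mem_A haA c''
  have hares : ∀ c'', (C.S c'').res ⟨a, haA'' c''⟩ = 0 := fun c'' =>
    gp_res_eq_zero C.S c'' (haA'' c'') (fun h => hai (C.mem_A h c'))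
  -- the auxiliary function
  set E : F := e₀ ^ n + algebraMap K F a with hE
  have hEO : ∀ c'', E ∈ (C.S c'').Ov := fun c'' =>
    add_mem (pow_mem (he₀.2 c'') n) ((C.S c'').algebraMap_mem (haA'' c''))
  have hred : ∀ c'', (C.S c'').red E = (C.S c'').red e₀ ^ n := by
    intro c''
    rw [hE, (C.S c'').red_add (pow_mem (he₀.2 c'') n) ((C.S c'').algebraMap_mem (haA'' c'')),
      (C.S c'').red_pow (he₀.2 c''), (C.S c'').red_algebraMap (haA'' c''), hares c'', map_zero,
      add_zero]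
  have hredc0 : (C.S c).red E ≠ 0 := by
    rw [hred]
    exact pow_ne_zero n he₀0
  have hEne : E ≠ 0 := (C.S c).ne_zero_of_red_ne_zero hredc0
  have hordc : Q.ord ((C.S c).red E) = -(((n * m : ℕ) : ℤ) * ρ) := by
    have hz := Q.ord_zpow ((C.S c).red e₀) (n : ℤ)
    rw [zpow_natCast] at hz
    rw [hred, hz, he₀o]
    push_cast
    ring
  -- `E / a = 1 + b (e₀ / a₀) ^ n` is a unit of `O_{c'}`
  set t : F := e₀ * (algebraMap K F a₀)⁻¹ with ht
  have hec : E * (algebraMap K F a)⁻¹ = b • t ^ n + 1 := by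
    rw [hE, ht, hb, Algebra.smul_def, map_mul, map_pow, map_inv₀, mul_pow, inv_pow]
    field_simp
  have hec' : E * (algebraMap K F a)⁻¹ ∈ (C.S c').Ov := by
    rw [hec]
    exact add_mem ((C.S c').smul_mem hbA (pow_mem hs1 n)) (one_mem _)
  have hecred : (C.S c').red (E * (algebraMap K F a)⁻¹) = 1 := by
    rw [hec, (C.S c').red_add ((C.S c').smul_mem hbA (pow_mem hs1 n)) (one_mem _),
      (C.S c').red_smul hbA (pow_mem hs1 n), hbres, zero_smul, zero_add, (C.S c').red_one]
  have heci : (E * (algebraMap K F a)⁻¹)⁻¹ ∈ (C.S c').Ov :=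
    (C.S c').inv_mem_of_red_ne_zero (by rw [hecred]; exact one_ne_zero)
  -- the push equality for `E`
  have hEInt : C.IsInt ((n * m) • D₀) E := by
    refine ⟨?_, hEO⟩
    rw [hE]
    apply Submodule.add_mem
    · rw [mul_smul]
      exact pow_mem_riemannRochSpace he₀.1 n
    · rw [Algebra.algebraMap_eq_smul_one]
      exact Submodule.smul_mem _ _
        (one_mem_riemannRochSpace_of_nonneg (nsmul_nonneg hD₀ _))
  have h2 := H.mapDomain_exact hF hpush₀ hEInt (by exact hredc0) (by exact hordc)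
  refine ⟨E, hEne, fun c'' hc'' => ⟨hEO c'', ?_⟩, hec', heci, ?_⟩
  · apply (C.S c'').inv_mem_of_red_ne_zero
    rw [hred]
    exact pow_ne_zero n (he₀'' c'' hc'')
  · rw [h2, hordc]

/-- **S6, the PUSH equality for the units of `O_c`**, inductive form: `g` is a unit of `O_c` and
of every `O_{c'}`, `c'` outside the finite set `T`. -/
theorem GPushHyp.push_unit_aux (H : GPushHyp C D₀ (Pi.evalAlgHom k Fk c) Q ρ (fun P => r P = x))
    (hF : IsRRField K F) (hD₀ : 0 ≤ D₀) (hpush₀ : Finsupp.mapDomain r D₀ x ≤ ρ)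
    (hexact : ∀ c', c' ≠ c → ∃ (m : ℕ) (e₀ : F), C.IsInt (m • D₀) e₀ ∧ (C.S c).red e₀ ≠ 0 ∧
      Q.ord ((C.S c).red e₀) = -(m * ρ) ∧ (C.S c').red e₀ = 0 ∧
      ∀ c'', c'' ≠ c' → (C.S c'').red e₀ ≠ 0) (T : Finset κ) (hT : c ∉ T) :
    ∀ g : F, g ≠ 0 → (∀ c', c' ∉ T → g ∈ (C.S c').Ov ∧ g⁻¹ ∈ (C.S c').Ov) →
      Finsupp.mapDomain r (divOf hF g) x = Q.ord ((C.S c).red g) := by
  classical
  induction T using Finset.induction_on with
  | empty =>
    intro g hg0 hg
    exact H.mapDomain_eq hF (fun c' => (hg c' (Finset.notMem_empty _)).1)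
      (fun c' => (hg c' (Finset.notMem_empty _)).2) hg0
  | insert c' T hc'T ih =>
    have hcc' : c' ≠ c := fun h => hT (h ▸ Finset.mem_insert_self c' T)
    have hcT : c ∉ T := fun h => hT (Finset.mem_insert_of_mem h)
    have ih' := ih hcT
    -- the case of an element whose absolute value at `c'` is at most `1`
    have key : ∀ g : F, g ≠ 0 →
        (∀ c'', c'' ∉ insert c' T → g ∈ (C.S c'').Ov ∧ g⁻¹ ∈ (C.S c'').Ov) →
        ∀ a : K, a ≠ 0 → a ∈ (C.S c').A → g * (algebraMap K F a)⁻¹ ∈ (C.S c').Ov →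
          (g * (algebraMap K F a)⁻¹)⁻¹ ∈ (C.S c').Ov →
          Finsupp.mapDomain r (divOf hF g) x = Q.ord ((C.S c).red g) := by
      intro g hg0 hg a ha0 haA hs1 hs2
      have ha0' : algebraMap K F a ≠ 0 := (map_ne_zero (algebraMap K F)).mpr ha0
      by_cases hai : a⁻¹ ∈ (C.S c').A
      · -- `g` is a unit of `O_{c'}`
        apply ih' g hg0
        intro c'' hc''
        by_cases h : c'' = c'
        · subst h
          constructor
          · have e : g = g * (algebraMap K F a)⁻¹ * algebraMap K F a := by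
              field_simp
            rw [e]
            exact mul_mem hs1 ((C.S c'').algebraMap_mem haA)
          · have e : g⁻¹ = (g * (algebraMap K F a)⁻¹)⁻¹ * algebraMap K F a⁻¹ := by
              rw [map_inv₀]
              field_simp
            rw [e]
            exact mul_mem hs2 ((C.S c'').algebraMap_mem hai)
        · exact hg c'' (by
            rw [Finset.mem_insert, not_or]
            exact ⟨h, hc''⟩)
      · -- `a` lies in the maximal ideal
        obtain ⟨E, hE0, hEu, hEa, hEai, hEpush⟩ :=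
          H.exists_aux hF hD₀ hpush₀ (hexact c' hcc') ha0 haA hai
        have hEc := hEu c hcc'.symm
        set u : F := g * E⁻¹ with hu
        have hu0 : u ≠ 0 := mul_ne_zero hg0 (inv_ne_zero hE0)
        have hgc := hg c hT
        have huT : ∀ c'', c'' ∉ T → u ∈ (C.S c'').Ov ∧ u⁻¹ ∈ (C.S c'').Ov := by
          intro c'' hc''
          by_cases h : c'' = c'
          · subst h
            constructor
            · have e1 : u = g * (algebraMap K F a)⁻¹ * (E * (algebraMap K F a)⁻¹)⁻¹ := by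
                rw [hu]
                field_simp
              rw [e1]
              exact mul_mem hs1 hEai
            · have e1 : u⁻¹ = (g * (algebraMap K F a)⁻¹)⁻¹ * (E * (algebraMap K F a)⁻¹) := by
                rw [hu]
                field_simp
              rw [e1]
              exact mul_mem hs2 hEa
          · have hg'' := hg c'' (by
              rw [Finset.mem_insert, not_or]
              exact ⟨h, hc''⟩)
            have hE'' := hEu c'' h
            constructor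
            · exact mul_mem hg''.1 hE''.2
            · have e1 : u⁻¹ = g⁻¹ * E := by
                rw [hu, mul_inv, inv_inv]
              rw [e1]
              exact mul_mem hg''.2 hE''.1
        have h1 := ih' u hu0 huT
        have huc := huT c hcT
        have hge : g = u * E := by
          rw [hu]
          field_simp
        have hdiv : divOf hF g = divOf hF u + divOf hF E := by
          conv_lhs => rw [hge]
          exact divOf_mul hF hu0 hE0
        have hredu : (C.S c).red g = (C.S c).red u * (C.S c).red E := by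
          conv_lhs => rw [hge]
          exact (C.S c).red_mul huc.1 hEc.1
        have hredu0 : (C.S c).red u ≠ 0 := (C.S c).red_ne_zero huc.1 huc.2 hu0
        have hredE0 : (C.S c).red E ≠ 0 := (C.S c).red_ne_zero hEc.1 hEc.2 hE0
        rw [hdiv, Finsupp.mapDomain_add, Finsupp.add_apply, h1, hEpush, hredu,
          Q.ord_mul hredu0 hredE0]
    intro g hg0 hg
    obtain ⟨a, ha0, hs1, hs2⟩ := (C.S c').scale g hg0
    by_cases haA : a ∈ (C.S c').A
    · exact key g hg0 hg a ha0 haA hs1 hs2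
    · -- pass to `g⁻¹` and `a⁻¹`
      have haiA : a⁻¹ ∈ (C.S c').A := ((C.S c').A.mem_or_inv_mem a).resolve_left haA
      have ha0' : algebraMap K F a ≠ 0 := (map_ne_zero (algebraMap K F)).mpr ha0
      have h1 : g⁻¹ * (algebraMap K F a⁻¹)⁻¹ ∈ (C.S c').Ov := by
        have e : g⁻¹ * (algebraMap K F a⁻¹)⁻¹ = (g * (algebraMap K F a)⁻¹)⁻¹ := by
          rw [map_inv₀]
          field_simp
        rw [e]
        exact hs2
      have h2 : (g⁻¹ * (algebraMap K F a⁻¹)⁻¹)⁻¹ ∈ (C.S c').Ov := by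
        have e : (g⁻¹ * (algebraMap K F a⁻¹)⁻¹)⁻¹ = g * (algebraMap K F a)⁻¹ := by
          rw [map_inv₀]
          field_simp
        rw [e]
        exact hs1
      have hgc := hg c hT
      have h3 := key g⁻¹ (inv_ne_zero hg0)
        (fun c'' hc'' => ⟨(hg c'' hc'').2, by rw [inv_inv]; exact (hg c'' hc'').1⟩)
        a⁻¹ (inv_ne_zero ha0) haiA h1 h2
      rw [divOf_inv, mapDomain_neg_apply, (C.S c).red_inv hgc.1 hgc.2 hg0, Place.ord_inv] at h3
      omega

/-- **S6, the PUSH equality for the units of `O_c`**. -/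
theorem GPushHyp.push_unit (H : GPushHyp C D₀ (Pi.evalAlgHom k Fk c) Q ρ (fun P => r P = x))
    (hF : IsRRField K F) (hD₀ : 0 ≤ D₀) (hpush₀ : Finsupp.mapDomain r D₀ x ≤ ρ)
    (hexact : ∀ c', c' ≠ c → ∃ (m : ℕ) (e₀ : F), C.IsInt (m • D₀) e₀ ∧ (C.S c).red e₀ ≠ 0 ∧
      Q.ord ((C.S c).red e₀) = -(m * ρ) ∧ (C.S c').red e₀ = 0 ∧
      ∀ c'', c'' ≠ c' → (C.S c'').red e₀ ≠ 0)
    {g : F} (hg : g ∈ (C.S c).Ov) (hgi : g⁻¹ ∈ (C.S c).Ov) (hg0 : g ≠ 0) :
    Finsupp.mapDomain r (divOf hF g) x = Q.ord ((C.S c).red g) := by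
  classical
  cases nonempty_fintype κ
  refine H.push_unit_aux hF hD₀ hpush₀ hexact (Finset.univ.erase c)
    (Finset.notMem_erase c _) g hg0 fun c' hc' => ?_
  have : c' = c := by
    by_contra h
    exact hc' (Finset.mem_erase.mpr ⟨h, Finset.mem_univ _⟩)
  rw [this]
  exact ⟨hg, hgi⟩

end Unit

end Fermat.Agent.BadRedG
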