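import Mathlib
import Fermat.Agent.Lib.BadRed.Graph.Deuring.PushUnit
import Fermat.Agent.Lib.BadRed.Graph.Deuring.TypeDef
import Fermat.Agent.Lib.BadRed.Graph.Deuring.Thresh
import Fermat.Agent.Lib.BadRed.Graph.Deuring.RRDim

set_option autoImplicit false
set_option linter.unusedSectionVars false
set_option linter.style.haveILetI false

/-!
# Cluster G, graph Deuring, steps S5 / S6: the PUSH equalities of a graph type (helper18)

Port of `Nodal/Deuring2/PushTwo.lean` (concrete part), `PushOne.lean` and `PushType.lean` to a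
family of components.  For a seed `G` with (LIFT) and a type `T : GraphType G`:

* `GraphSeed.gp_exists_tuple` : tuples of `graphRR (m R)` with the value `v` at all the branches,
  nowhere zero, with exact order `- m R_c(Q)` at a smooth point `Q` of the component `c`;
* `GraphSeed.gp_exists_unit` : units of all the valuation rings in `𝔏(m D₀)` with exact order at
  `Q`;
* `GraphSeed.gp_exists_zero` : functions of `𝔏(m D₀)` with exact order at `Q` which vanish on
  exactly one other component;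
* `GraphType.pushHyp` : the hypotheses `GPushHyp` of the abstract push theorems;
* `GraphType.pushAll_of : T.PushAll`, `GraphType.mapDomain_D₀_of`, `GraphType.push_of : T.Push`
  (from `hl : G.HasLift`), and the unconditional forms `GraphType.pushAll`,
  `GraphType.mapDomain_D₀`, `GraphType.push`.
-/

noncomputable section

open AlgebraicCurve Fermat.Agent.RR Fermat.Agent.Deuring

namespace Fermat.Agent.BadRedG

open Fermat.Agent.BadRed Fermat.Agent.BadRed.Push

variable {K F k : Type*} [Field K] [Field F] [Algebra K F] [Field k]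
  {κ : Type*} {Fk : κ → Type*} [∀ c, Field (Fk c)] [∀ c, Algebra k (Fk c)] {ι : Type*}
  [Fintype κ] [Fintype ι]

variable {G : GraphSeed K F k κ Fk ι}

/-- tuples of `∏ L(m R_c)`, nowhere zero, with the value `v` at all the branches of the nodes and
the exact order `- m R_c(Q)` at the smooth point `Q` of the component `c`. -/
theorem GraphSeed.gp_exists_tuple [Infinite k] (hl : G.HasLift) {m : ℕ} (hm : G.m₁ hl ≤ m)
    {c : κ} {Q : Place k (Fk c)} (hQ : G.toGraphCore.IsSmoothPt c Q) (v : k) :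
    ∃ y : ∀ c, Fk c, (∀ c', y c' ∈ riemannRochSpace (m • G.R c')) ∧ (∀ c', y c' ≠ 0) ∧
      (∀ (c' : κ) (Q' : Place k (Fk c')), G.toGraphCore.IsBr ⟨c', Q'⟩ → ValAt Q' (y c') v) ∧
      Q.ord (y c) = -((m : ℤ) * G.R c Q) := by
  classical
  have hQ' : ¬ G.toGraphCore.IsBr ⟨c, Q⟩ := (G.toGraphCore.isSmoothPt_iff c Q).mp hQ
  obtain ⟨a, ha, ha0, hav, haT⟩ := G.toGraphCore.exists_interp c (m • G.R c)
    (fun Q' hQ' => G.smul_R_br m hQ') {Q}
    (fun Q' hQ'' => by rw [Finset.mem_singleton.mp hQ'']; exact hQ')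
    (G.hdeg hl hm c) (fun _ => v)
  have hoth : ∀ c', ∃ b ∈ riemannRochSpace (m • G.R c'), b ≠ 0 ∧
      ∀ Q', G.toGraphCore.IsBr ⟨c', Q'⟩ → ValAt Q' b v := by
    intro c'
    obtain ⟨b, hb, hb0, hbv, -⟩ := G.toGraphCore.exists_interp c' (m • G.R c')
      (fun Q' hQ' => G.smul_R_br m hQ') ∅ (fun Q' hQ' => absurd hQ' (Finset.notMem_empty _))
      (G.hdeg hl hm c') (fun _ => v)
    exact ⟨b, hb, hb0, hbv⟩
  choose b hbL hb0 hbv using hoth
  refine ⟨Function.update b c a, fun c' => ?_, fun c' => ?_, fun c' Q' hQ'' => ?_, ?_⟩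
  · by_cases hc : c' = c
    · subst hc; rw [Function.update_self]; exact ha
    · rw [Function.update_of_ne hc]; exact hbL c'
  · by_cases hc : c' = c
    · subst hc; rw [Function.update_self]; exact ha0
    · rw [Function.update_of_ne hc]; exact hb0 c'
  · by_cases hc : c' = c
    · subst hc; rw [Function.update_self]; exact hav Q' hQ''
    · rw [Function.update_of_ne hc]; exact hbv c' Q' hQ''
  · rw [Function.update_self, haT Q (Finset.mem_singleton_self Q), Finsupp.smul_apply,
      nsmul_eq_mul]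

/-- units of all the valuation rings, in `𝔏(m D₀)`, whose reduction on the component `c` has the
exact order `- m R_c(Q)` at the smooth point `Q`. -/
theorem GraphSeed.gp_exists_unit [Infinite k] (hl : G.HasLift) {m : ℕ} (hm : G.m₁ hl ≤ m)
    {c : κ} {Q : Place k (Fk c)} (hQ : G.toGraphCore.IsSmoothPt c Q) :
    ∃ u : F, G.toGraphCore.IsInt (m • G.D₀) u ∧ (∀ c', (G.S c').red u ≠ 0) ∧
      Q.ord ((G.S c).red u) = -((m : ℤ) * G.R c Q) := by
  obtain ⟨y, hyL, hy0, hyv, hyo⟩ := G.gp_exists_tuple hl hm hQ 1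
  obtain ⟨u, hu, huy⟩ := G.exists_lift hl hm (G.toGraphCore.mem_graphRR_of_const 1 hyL hyv)
  have hr : ∀ c', (G.S c').red u = y c' := fun c' => congrFun huy c'
  refine ⟨u, hu, fun c' => ?_, ?_⟩
  · rw [hr]; exact hy0 c'
  · rw [hr]; exact hyo

/-- functions of `𝔏(m D₀)` whose reduction on the component `c` has the exact order `- m R_c(Q)`
at the smooth point `Q`, and which vanish on the component `c' ≠ c` and on no other one. -/
theorem GraphSeed.gp_exists_zero [Infinite k] (hl : G.HasLift) {m : ℕ} (hm : G.m₁ hl ≤ m)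
    {c : κ} {Q : Place k (Fk c)} (hQ : G.toGraphCore.IsSmoothPt c Q) {c' : κ} (hc' : c' ≠ c) :
    ∃ e₀ : F, G.toGraphCore.IsInt (m • G.D₀) e₀ ∧ (G.S c).red e₀ ≠ 0 ∧
      Q.ord ((G.S c).red e₀) = -((m : ℤ) * G.R c Q) ∧ (G.S c').red e₀ = 0 ∧
      ∀ c'', c'' ≠ c' → (G.S c'').red e₀ ≠ 0 := by
  classical
  obtain ⟨y, hyL, hy0, hyv, hyo⟩ := G.gp_exists_tuple hl hm hQ 0
  have hmem : Function.update y c' 0 ∈
      graphRR G.src G.tgt G.s₁ G.s₂ (fun c => m • G.R c) := by
    refine G.toGraphCore.mem_graphRR_of_const 0 (fun c'' => ?_) (fun c'' Q' hQ' => ?_)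
    · by_cases hc : c'' = c'
      · subst hc; rw [Function.update_self]; exact Submodule.zero_mem _
      · rw [Function.update_of_ne hc]; exact hyL c''
    · by_cases hc : c'' = c'
      · subst hc; rw [Function.update_self]; exact valAt_zero _
      · rw [Function.update_of_ne hc]; exact hyv c'' Q' hQ'
  obtain ⟨e₀, he, hey⟩ := G.exists_lift hl hm hmem
  have hr : ∀ c'', (G.S c'').red e₀ = Function.update y c' 0 c'' := fun c'' => congrFun hey c''
  have hrc : (G.S c).red e₀ = y c := by rw [hr, Function.update_of_ne hc'.symm]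
  refine ⟨e₀, he, ?_, ?_, ?_, fun c'' hc'' => ?_⟩
  · rw [hrc]; exact hy0 c
  · rw [hrc]; exact hyo
  · rw [hr, Function.update_self]
  · rw [hr, Function.update_of_ne hc'']; exact hy0 c''

namespace GraphType

variable [Infinite k] [Nonempty κ] (T : GraphType G)

/-- the hypotheses of the push inequality at the smooth point `Q` of the component `c`. -/
theorem pushHyp (hl : G.HasLift) {c : κ} {Q : Place k (Fk c)}
    (hQ : G.toGraphCore.IsSmoothPt c Q) :
    GPushHyp G.toGraphCore G.D₀ (Pi.evalAlgHom k Fk c) Q (G.R c Q)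
      (fun P => T.r P = some ⟨c, Q⟩) where
  base := by
    intro m y hy
    have h1 := (G.V_le m hy).1 c
    rw [mem_ordGE]
    rcases mem_riemannRochSpace_iff.mp h1 Q with h | h
    · exact Or.inl h
    · right
      rw [Finsupp.smul_apply, nsmul_eq_mul] at h
      exact h
  exact₀ := by
    refine ⟨G.m₁ hl, fun m hm => ?_⟩
    obtain ⟨u, hu, hu1, huo⟩ := G.gp_exists_unit hl hm hQ
    exact ⟨G.toGraphCore.redAll u, G.toGraphCore.redAll_mem_V hu, hu1 c, huo⟩
  pole := by
    intro P hP
    obtain ⟨m, f, hf, hf0, hfo⟩ := T.pole P c Q hP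
    refine ⟨m, G.toGraphCore.redAll f, G.toGraphCore.redAll_mem_V hf, hf0, ?_⟩
    rw [Finsupp.smul_apply, nsmul_eq_mul] at hfo
    exact hfo
  away := by
    intro P hP
    obtain ⟨m, f, hf, hf0, hfo⟩ := T.unit P c Q hQ hP
    refine ⟨m, G.toGraphCore.redAll f, G.toGraphCore.redAll_mem_V hf, hf0, ?_⟩
    rw [Finsupp.smul_apply, nsmul_eq_mul] at hfo
    exact hfo

/-- (F3) `r_* D₀ = R_c` at the smooth points of the component `c`. -/
theorem mapDomain_D₀_of (hl : G.HasLift) {c : κ} {Q : Place k (Fk c)}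
    (hQ : G.toGraphCore.IsSmoothPt c Q) :
    Finsupp.mapDomain T.r G.D₀ (some ⟨c, Q⟩) = G.R c Q := by
  have hm : G.m₁ hl ≤ G.m₁ hl + 1 := Nat.le_succ _
  obtain ⟨u, hu, hu1, huo⟩ := G.gp_exists_unit hl hm hQ
  have huo' : Q.ord ((Pi.evalAlgHom k Fk c) (G.toGraphCore.redAll u))
      = -(((G.m₁ hl + 1 : ℕ) : ℤ) * G.R c Q) := huo
  exact (T.pushHyp hl hQ).mapDomain_D₀_eq (G.S c).hF (Nat.succ_pos _) hu
    (fun c' => (G.S c').inv_mem_of_red_ne_zero (hu1 c')) (hu1 c) huo'

end GraphType

/-- **S5**: push at the smooth points, for the units of all the valuation rings. -/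
theorem GraphType.pushAll_of [Infinite k] (T : GraphType G) (hl : G.HasLift) : T.PushAll := by
  intro c f hf hfi hf0 Q hQ
  haveI : Nonempty κ := ⟨c⟩
  exact (T.pushHyp hl hQ).mapDomain_eq (G.S c).hF hf hfi hf0

/-- **S6**: push at the smooth points of the component `c`, for the units of the valuation ring
of `c`. -/
theorem GraphType.push_of [Infinite k] (T : GraphType G) (hl : G.HasLift) : T.Push := by
  intro c f hf hfi hf0 Q hQ₁ hQ₂
  haveI : Nonempty κ := ⟨c⟩
  have hQ : G.toGraphCore.IsSmoothPt c Q := ⟨hQ₁, hQ₂⟩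
  refine (T.pushHyp hl hQ).push_unit (G.S c).hF G.D₀_nonneg (T.mapDomain_D₀_of hl hQ).le
    (fun c' hc' => ?_) hf hfi hf0
  obtain ⟨e₀, he, h1, h2, h3, h4⟩ := G.gp_exists_zero hl (le_refl _) hQ hc'
  exact ⟨G.m₁ hl, e₀, he, h1, h2, h3, h4⟩

/-! ### unconditional forms -/

/-- **S5**, unconditional. -/
theorem GraphType.pushAll [Infinite k] (T : GraphType G) : T.PushAll := by
  intro c
  haveI : Nonempty κ := ⟨c⟩
  exact T.pushAll_of G.hasLift c

/-- (F3), unconditional. -/
theorem GraphType.mapDomain_D₀ [Infinite k] (T : GraphType G) {c : κ} {Q : Place k (Fk c)}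
    (hQ : G.toGraphCore.IsSmoothPt c Q) :
    Finsupp.mapDomain T.r G.D₀ (some ⟨c, Q⟩) = G.R c Q := by
  haveI : Nonempty κ := ⟨c⟩
  exact T.mapDomain_D₀_of G.hasLift hQ

/-- **S6**, unconditional: the field `push` of the graph package. -/
theorem GraphType.push [Infinite k] (T : GraphType G) : T.Push := by
  intro c
  haveI : Nonempty κ := ⟨c⟩
  exact T.push_of G.hasLift c

end Fermat.Agent.BadRedG
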