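import Mathlib
import Fermat.Agent.Lib.BadRed.Graph.Deuring.Thresh
import Fermat.Agent.Lib.BadRed.Graph.Deuring.FIG
import Fermat.Agent.Lib.BadRed.Nodal.Deuring2.TypeA

set_option autoImplicit false
set_option linter.style.haveILetI false
set_option linter.unusedSectionVars false

/-!
# Cluster G, graph Deuring construction, step S2 (part A): the excess of `V(m D₀ + P)` over
`V(m D₀)`  (helper20; port of `Nodal/Deuring2/TypeA.lean`)

For a seed `G`, `hl : G.HasLift`, a place `P` of `F / K` and `m ≥ G.m₁ hl`: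

* `GraphSeed.exists_sub_smul_mem` : `V(m D₀ + P) / V(m D₀)` is a line;
* `GraphSeed.exists_not_mem` : it is not zero;
* `GraphSeed.exists_exact_tuple` : a tuple of `graphRR (m R)` with exact pole divisor `m R`;
* `GraphSeed.excess` : **(FI bound)** for `w ∈ V(m D₀ + P)`: if `w c ∉ L(m R_c)` then
  `w c ∈ L(m R_c + Q)` for some place `Q` of the component `c`, and `w c' ∈ L(m R_c')` for all
  the other components.
-/

noncomputable section

open AlgebraicCurve Fermat.Agent.RR Fermat.Agent.Deuring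

namespace Fermat.Agent.BadRedG

open Fermat.Agent.BadRed

variable {K F k : Type*} [Field K] [Field F] [Algebra K F] [Field k]
  {κ : Type*} {Fk : κ → Type*} [∀ c, Field (Fk c)] [∀ c, Algebra k (Fk c)] {ι : Type*}
  [Fintype κ] [Fintype ι] {G : GraphSeed K F k κ Fk ι}

/-- elements of `V(m D₀)` lie in `∏ L(m R_c)`. -/
theorem GraphSeed.apply_mem_of_mem_V {m : ℕ} {w : ∀ c, Fk c}
    (hw : w ∈ G.toGraphCore.V (m • G.D₀)) (c : κ) : w c ∈ riemannRochSpace (m • G.R c) :=
  (G.V_le m hw).1 c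

/-- `V(m D₀ + P) / V(m D₀)` is a line. -/
theorem GraphSeed.exists_sub_smul_mem [Nonempty κ] (hl : G.HasLift) {m : ℕ}
    (hm : G.m₁ hl ≤ m) (P : Place K F) {w w' : ∀ c, Fk c}
    (hw : w ∈ G.toGraphCore.V (m • G.D₀ + Finsupp.single P 1))
    (hwV : w ∉ G.toGraphCore.V (m • G.D₀))
    (hw' : w' ∈ G.toGraphCore.V (m • G.D₀ + Finsupp.single P 1)) :
    ∃ l : k, w' - l • w ∈ G.toGraphCore.V (m • G.D₀) := by
  haveI := G.toGraphCore.finite_V (m • G.D₀ + Finsupp.single P 1)
  refine exists_sub_smul_mem_of_finrank (G.toGraphCore.V_mono (le_add_single _ P)) ?_ hw hwV hw'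
  rw [G.toGraphCore.finrank_V, G.toGraphCore.finrank_V, GraphSeed.ell_add_single hl hm P]

/-- there is an element of `V(m D₀ + P)` outside `V(m D₀)`. -/
theorem GraphSeed.exists_not_mem [Nonempty κ] (hl : G.HasLift) {m : ℕ} (hm : G.m₁ hl ≤ m)
    (P : Place K F) :
    ∃ w ∈ G.toGraphCore.V (m • G.D₀ + Finsupp.single P 1), w ∉ G.toGraphCore.V (m • G.D₀) := by
  by_contra hcon
  push Not at hcon
  have hle : G.toGraphCore.V (m • G.D₀ + Finsupp.single P 1) ≤ G.toGraphCore.V (m • G.D₀) :=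
    hcon
  haveI := G.toGraphCore.finite_V (m • G.D₀)
  have h1 := Submodule.finrank_mono hle
  rw [G.toGraphCore.finrank_V, G.toGraphCore.finrank_V, GraphSeed.ell_add_single hl hm P] at h1
  omega

/-- a tuple of the graph Riemann-Roch space with exact pole divisors `m R_c`, vanishing at the
branches. -/
theorem GraphSeed.exists_exact_tuple [Infinite k] (hl : G.HasLift) {m : ℕ} (hm : G.m₁ hl ≤ m) :
    ∃ u ∈ graphRR G.src G.tgt G.s₁ G.s₂ (fun c => m • G.R c),
      ∀ c, m • G.R c ≤ poleDiv (G.S c).hFk (u c) := by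
  classical
  have hex : ∀ c, ∃ a ∈ riemannRochSpace (m • G.R c), a ≠ 0 ∧
      (∀ Q, G.toGraphCore.IsBr ⟨c, Q⟩ → ValAt Q a 0) ∧
      ∀ Q ∈ (m • G.R c).support, Q.ord a = -(m • G.R c) Q := fun c =>
    G.toGraphCore.exists_interp c (m • G.R c) (fun Q hQ => G.smul_R_br m hQ)
      (m • G.R c).support
      (fun Q hQ hbr => (Finsupp.mem_support_iff.mp hQ) (G.smul_R_br m hbr))
      (GraphSeed.hdeg hl hm c) (fun _ => 0)
  choose a ha ha0 hav haT using hex
  refine ⟨a, G.toGraphCore.mem_graphRR_of_const 0 ha (fun c Q hQ => hav c Q hQ), fun c => ?_⟩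
  rw [Finsupp.le_def]
  intro Q
  rw [poleDiv_apply]
  by_cases hQ : Q ∈ (m • G.R c).support
  · rw [haT c Q hQ, neg_neg]
    exact le_max_left _ _
  · rw [Finsupp.notMem_support_iff.mp hQ]
    exact le_max_right _ _

/-- **(FI bound)**: for `w ∈ V(m D₀ + P)`, at most one component `c` has `w c ∉ L(m R_c)`, and
then `w c ∈ L(m R_c + Q)` for some place `Q`. -/
theorem GraphSeed.excess [Infinite k] (hl : G.HasLift) {m : ℕ} (hm : G.m₁ hl ≤ m)
    (P : Place K F) {w : ∀ c, Fk c}
    (hw : w ∈ G.toGraphCore.V (m • G.D₀ + Finsupp.single P 1)) (c : κ)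
    (hc : w c ∉ riemannRochSpace (m • G.R c)) :
    (∃ Q : Place k (Fk c), w c ∈ riemannRochSpace (m • G.R c + Finsupp.single Q 1)) ∧
      ∀ c', c' ≠ c → w c' ∈ riemannRochSpace (m • G.R c') := by
  classical
  haveI : Nonempty κ := ⟨c⟩
  obtain ⟨f, hf, rfl⟩ := (G.toGraphCore.mem_V_iff _).mp hw
  -- a tuple with exact pole divisor, and its lift
  obtain ⟨u, hu, hpu⟩ := GraphSeed.exists_exact_tuple hl hm
  obtain ⟨f₀, hf₀, hf₀u⟩ := GraphSeed.exists_lift hl hm hu
  -- a generic combination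
  have hB : ∀ c', {l : k | ¬ (poleDiv (G.S c').hFk (G.toGraphCore.redAll f c') ≤
        poleDiv (G.S c').hFk (G.toGraphCore.redAll f c' + l • u c') ∧
      poleDiv (G.S c').hFk (u c') ≤
        poleDiv (G.S c').hFk (G.toGraphCore.redAll f c' + l • u c'))}.Finite := fun c' =>
    finite_bad_combination (G.S c').hFk (G.toGraphCore.redAll f c') (u c')
  obtain ⟨l, hl'⟩ := ((Set.finite_iUnion hB).infinite_compl).nonempty
  rw [Set.mem_compl_iff, Set.mem_iUnion, not_exists] at hl'
  have hlw : ∀ c', poleDiv (G.S c').hFk (G.toGraphCore.redAll f c') ≤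
      poleDiv (G.S c').hFk (G.toGraphCore.redAll f c' + l • u c') := fun c' => by
    have := hl' c'
    rw [Set.mem_ofPred_eq, not_not] at this
    exact this.1
  have hlu : ∀ c', poleDiv (G.S c').hFk (u c') ≤
      poleDiv (G.S c').hFk (G.toGraphCore.redAll f c' + l • u c') := fun c' => by
    have := hl' c'
    rw [Set.mem_ofPred_eq, not_not] at this
    exact this.2
  obtain ⟨⟨x, hx⟩, rfl⟩ := (G.S c).res_surj l
  have hg : ∀ c', f + x • f₀ ∈ (G.S c').Ov := fun c' =>
    add_mem (hf.2 c') ((G.S c').smul_mem (G.toGraphCore.mem_A hx c') (hf₀.2 c'))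
  have hgL : f + x • f₀ ∈ riemannRochSpace (m • G.D₀ + Finsupp.single P 1) :=
    Submodule.add_mem _ hf.1
      (Submodule.smul_mem _ x (riemannRochSpace_mono (le_add_single _ P) hf₀.1))
  have hr : ∀ c', (G.S c').red (f + x • f₀) =
      G.toGraphCore.redAll f c' + (G.S c).res ⟨x, hx⟩ • u c' := by
    intro c'
    rw [(G.S c').red_add (hf.2 c') ((G.S c').smul_mem (G.toGraphCore.mem_A hx c') (hf₀.2 c')),
      (G.S c').red_smul (G.toGraphCore.mem_A hx c') (hf₀.2 c'),
      G.res_eq c' c x (G.toGraphCore.mem_A hx c') hx, ← hf₀u]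
    rfl
  have hFI := G.toGraphCore.fi_degree_le c hg
  simp only [hr] at hFI
  have hnn : 0 ≤ m • G.D₀ + Finsupp.single P 1 :=
    (G.smul_D₀_nonneg m).trans (le_add_single _ P)
  have hpg := degree_mono (G.S c).hF (fi_poleDiv_le (G.S c).hF hnn hgL)
  rw [map_add, degree_single_one (G.S c).hF, G.degree_smul_D₀, ← G.deg_eq, Finset.mul_sum] at hpg
  -- the excess of every component
  set X : ∀ c', Divisor k (Fk c') := fun c' =>
    poleDiv (G.S c').hFk (G.toGraphCore.redAll f c' + (G.S c).res ⟨x, hx⟩ • u c') with hX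
  have hRX : ∀ c', m • G.R c' ≤ X c' := fun c' => (hpu c').trans (hlu c')
  have hdX : ∀ c', (m : ℤ) * Divisor.degree (G.R c') ≤ Divisor.degree (X c') := fun c' => by
    have := degree_mono (G.S c').hFk (hRX c')
    rwa [G.degree_smul_R] at this
  have hsum : ∑ c', (Divisor.degree (X c') - (m : ℤ) * Divisor.degree (G.R c')) ≤ 1 := by
    rw [Finset.sum_sub_distrib]
    linarith
  have hmem : ∀ c', Divisor.degree (X c') ≤ (m : ℤ) * Divisor.degree (G.R c') →
      G.toGraphCore.redAll f c' ∈ riemannRochSpace (m • G.R c') := fun c' h =>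
    mem_riemannRochSpace_of_poleDiv_le (G.S c').hFk (hRX c') (hlw c')
      (by rw [G.degree_smul_R]; exact h)
  have hcpos : (m : ℤ) * Divisor.degree (G.R c) < Divisor.degree (X c) := by
    by_contra hle
    exact hc (hmem c (not_lt.mp hle))
  have hterm : ∀ c' ∈ (Finset.univ : Finset κ),
      0 ≤ Divisor.degree (X c') - (m : ℤ) * Divisor.degree (G.R c') := fun c' _ => by
    have := hdX c'
    omega
  refine ⟨?_, fun c' hne => ?_⟩
  · refine exists_mem_riemannRochSpace_add_single (G.S c).hFk (hRX c) (hlw c) ?_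
    rw [G.degree_smul_R]
    have := Finset.single_le_sum hterm (Finset.mem_univ c)
    linarith
  · apply hmem c'
    have h2 : ∑ c'' ∈ ({c, c'} : Finset κ),
        (Divisor.degree (X c'') - (m : ℤ) * Divisor.degree (G.R c'')) ≤
        ∑ c'', (Divisor.degree (X c'') - (m : ℤ) * Divisor.degree (G.R c'')) :=
      Finset.sum_le_sum_of_subset_of_nonneg (Finset.subset_univ _) (fun c'' _ _ => hterm c''
        (Finset.mem_univ c''))
    rw [Finset.sum_pair (Ne.symm hne)] at h2
    linarith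

end Fermat.Agent.BadRedG
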