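import Mathlib
import Fermat.Agent.Lib.BadRed.Graph.Deuring.TypeA
import Fermat.Agent.Lib.BadRed.Nodal.Deuring2.TypeB

set_option autoImplicit false
set_option linter.style.haveILetI false
set_option linter.unusedSectionVars false

/-!
# Cluster G, graph Deuring construction, step S2 (part B): the TYPE of a place
(helper20; port of `Nodal/Deuring2/TypeB.lean`)

For a seed `G`, `hl : G.HasLift`, a place `P` of `F / K` and a level `m ≥ G.m₁ hl`, the line
`V(m D₀ + P) / V(m D₀)` has a TYPE: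

* `G.HasPole m P c Q` : a generator has a pole of order `m R_c(Q) + 1` at the place `Q` of the
  component `c`;
* `G.IsNodeType m P` : a generator lies in `∏ L(m R_c)` and violates a node condition.

Results: `GraphSeed.trichotomy`, `HasPole.forall_mem`, `HasPole.unique`,
`HasPole.not_isNodeType`, `HasPole.up`, `HasPole.level`, `IsNodeType.level`, and the reduction
map `G.rmap hl` with `rmap_eq_some_iff`, `rmap_eq_none_iff`, `hasPole_of_rmap`,
`isNodeType_of_rmap`, `rmap_of_hasPole`, `rmap_of_isNodeType`, `rmap_of_witness`.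
-/

noncomputable section

open AlgebraicCurve Fermat.Agent.RR Fermat.Agent.Deuring

namespace Fermat.Agent.BadRedG

open Fermat.Agent.BadRed

variable {K F k : Type*} [Field K] [Field F] [Algebra K F] [Field k]
  {κ : Type*} {Fk : κ → Type*} [∀ c, Field (Fk c)] [∀ c, Algebra k (Fk c)] {ι : Type*}
  [Fintype κ] [Fintype ι]

/-! ### the types -/

/-- the line `V(m D₀ + P) / V(m D₀)` is generated by a tuple with a pole at the place `Q` of the
component `c`. -/
def GraphSeed.HasPole (G : GraphSeed K F k κ Fk ι) (m : ℕ) (P : Place K F) (c : κ)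
    (Q : Place k (Fk c)) : Prop :=
  ∃ f : F, G.toGraphCore.IsInt (m • G.D₀ + Finsupp.single P 1) f ∧ (G.S c).red f ≠ 0 ∧
    Q.ord ((G.S c).red f) = -((m • G.R c) Q) - 1

/-- the line `V(m D₀ + P) / V(m D₀)` is generated by a tuple without new poles, which violates a
node condition. -/
def GraphSeed.IsNodeType (G : GraphSeed K F k κ Fk ι) (m : ℕ) (P : Place K F) : Prop :=
  ∃ f : F, G.toGraphCore.IsInt (m • G.D₀ + Finsupp.single P 1) f ∧
    (∀ c, (G.S c).red f ∈ riemannRochSpace (m • G.R c)) ∧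
    G.toGraphCore.redAll f ∉ graphRR G.src G.tgt G.s₁ G.s₂ (fun c => m • G.R c)

variable {G : GraphSeed K F k κ Fk ι}

/-! ### a fixed level -/

/-- the reduction of a witness of `HasPole`. -/
theorem GraphSeed.HasPole.exists_mem {m : ℕ} {P : Place K F} {c : κ} {Q : Place k (Fk c)}
    (h : G.HasPole m P c Q) :
    ∃ w ∈ G.toGraphCore.V (m • G.D₀ + Finsupp.single P 1), w c ≠ 0 ∧
      Q.ord (w c) = -((m • G.R c) Q) - 1 := by
  obtain ⟨f, hf, h1, h2⟩ := h
  exact ⟨G.toGraphCore.redAll f, G.toGraphCore.redAll_mem_V hf, h1, h2⟩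

theorem GraphSeed.hasPole_of_mem [Nonempty κ] {m : ℕ} {P : Place K F} {c : κ}
    {Q : Place k (Fk c)} {w : ∀ c, Fk c}
    (hw : w ∈ G.toGraphCore.V (m • G.D₀ + Finsupp.single P 1)) (h1 : w c ≠ 0)
    (h2 : Q.ord (w c) = -((m • G.R c) Q) - 1) : G.HasPole m P c Q := by
  obtain ⟨f, hf, rfl⟩ := (G.toGraphCore.mem_V_iff _).mp hw
  exact ⟨f, hf, h1, h2⟩

/-- **same-level structure**: if the type is `(c, Q)`, every element of `V(m D₀ + P)` lies in
`L(m R_c + Q)` on `c` and in `L(m R_c')` on the other components, and the elements outside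
`V(m D₀)` have a pole at `Q`. -/
theorem GraphSeed.HasPole.forall_mem [Infinite k] (hl : G.HasLift) {m : ℕ} (hm : G.m₁ hl ≤ m)
    {P : Place K F} {c : κ} {Q : Place k (Fk c)} (h : G.HasPole m P c Q) {w : ∀ c, Fk c}
    (hw : w ∈ G.toGraphCore.V (m • G.D₀ + Finsupp.single P 1)) :
    w c ∈ riemannRochSpace (m • G.R c + Finsupp.single Q 1) ∧
      (∀ c', c' ≠ c → w c' ∈ riemannRochSpace (m • G.R c')) ∧
      (w ∉ G.toGraphCore.V (m • G.D₀) → w c ≠ 0 ∧ Q.ord (w c) = -((m • G.R c) Q) - 1) := by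
  haveI : Nonempty κ := ⟨c⟩
  obtain ⟨w₀, hw₀, hw₀1, hw₀2⟩ := h.exists_mem
  have hw₀not : w₀ c ∉ riemannRochSpace (m • G.R c) :=
    not_mem_riemannRochSpace_of_ord hw₀1 hw₀2
  have hw₀V : w₀ ∉ G.toGraphCore.V (m • G.D₀) := fun h =>
    hw₀not (GraphSeed.apply_mem_of_mem_V h c)
  -- the witness lies in `L(m R_c + Q) × ∏ L(m R_c')`
  obtain ⟨⟨Q', hQ'⟩, hw₀oth⟩ := GraphSeed.excess hl hm P hw₀ c hw₀not
  have hQQ := eq_of_mem_add_single_of_ord hw₀1 hw₀2 hQ'
  subst hQQ
  obtain ⟨l, hl'⟩ := GraphSeed.exists_sub_smul_mem hl hm P hw₀ hw₀V hw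
  have hv := fun c' => GraphSeed.apply_mem_of_mem_V hl' c'
  have e : ∀ c', w c' = (w - l • w₀) c' + l • w₀ c' := fun c' => by
    simp only [Pi.sub_apply, Pi.smul_apply, sub_add_cancel]
  have hmem1 : w c ∈ riemannRochSpace (m • G.R c + Finsupp.single Q' 1) := by
    rw [e c]
    exact Submodule.add_mem _ (riemannRochSpace_mono (le_add_single _ Q') (hv c))
      (Submodule.smul_mem _ l hQ')
  refine ⟨hmem1, fun c' hne => ?_, fun hwV => ?_⟩
  · rw [e c']
    exact Submodule.add_mem _ (hv c') (Submodule.smul_mem _ l (hw₀oth c' hne))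
  · have hl0 : l ≠ 0 := by
      rintro rfl
      rw [zero_smul, sub_zero] at hl'
      exact hwV hl'
    have hnot : w c ∉ riemannRochSpace (m • G.R c) := by
      intro hin
      apply hw₀not
      have h3 : l • w₀ c ∈ riemannRochSpace (m • G.R c) := by
        have e3 : l • w₀ c = w c - (w - l • w₀) c := by
          simp only [Pi.sub_apply, Pi.smul_apply, sub_sub_cancel]
        rw [e3]
        exact Submodule.sub_mem _ hin (hv c)
      have := Submodule.smul_mem _ l⁻¹ h3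
      rwa [smul_smul, inv_mul_cancel₀ hl0, one_smul] at this
    have := ord_eq_of_mem_add_single_of_not_mem hmem1 hnot
    exact ⟨this.1, this.2⟩

/-- uniqueness of the point `(c, Q)`. -/
theorem GraphSeed.HasPole.unique [Infinite k] (hl : G.HasLift) {m : ℕ} (hm : G.m₁ hl ≤ m)
    {P : Place K F} {c c' : κ} {Q : Place k (Fk c)} {Q' : Place k (Fk c')}
    (h : G.HasPole m P c Q) (h' : G.HasPole m P c' Q') :
    (⟨c, Q⟩ : Σ c, Place k (Fk c)) = ⟨c', Q'⟩ := by
  obtain ⟨w, hw, hw1, hw2⟩ := h'.exists_mem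
  have hnot : w c' ∉ riemannRochSpace (m • G.R c') := not_mem_riemannRochSpace_of_ord hw1 hw2
  have hfm := h.forall_mem hl hm hw
  have hcc : c' = c := by
    by_contra hne
    exact hnot (hfm.2.1 c' hne)
  subst hcc
  have := eq_of_mem_add_single_of_ord hw1 hw2 hfm.1
  rw [this]

/-- the type `(c, Q)` excludes the node type. -/
theorem GraphSeed.HasPole.not_isNodeType [Infinite k] (hl : G.HasLift) {m : ℕ}
    (hm : G.m₁ hl ≤ m) {P : Place K F} {c : κ} {Q : Place k (Fk c)} (h : G.HasPole m P c Q) :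
    ¬ G.IsNodeType m P := by
  rintro ⟨f, hf, h1, h3⟩
  have hV : G.toGraphCore.redAll f ∉ G.toGraphCore.V (m • G.D₀) := by
    rw [GraphSeed.V_eq hl hm]
    exact h3
  obtain ⟨h4, h5⟩ := (h.forall_mem hl hm (G.toGraphCore.redAll_mem_V hf)).2.2 hV
  exact not_mem_riemannRochSpace_of_ord h4 h5 (h1 c)

/-- **Trichotomy** at the level `m`. -/
theorem GraphSeed.trichotomy [Infinite k] [Nonempty κ] (hl : G.HasLift) {m : ℕ}
    (hm : G.m₁ hl ≤ m) (P : Place K F) :
    (∃ (c : κ) (Q : Place k (Fk c)), G.HasPole m P c Q) ∨ G.IsNodeType m P := by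
  obtain ⟨w, hw, hwV⟩ := GraphSeed.exists_not_mem hl hm P
  obtain ⟨f, hf, rfl⟩ := (G.toGraphCore.mem_V_iff _).mp hw
  by_cases h1 : ∀ c, (G.S c).red f ∈ riemannRochSpace (m • G.R c)
  · right
    refine ⟨f, hf, h1, ?_⟩
    rw [← GraphSeed.V_eq hl hm]
    exact hwV
  · left
    push Not at h1
    obtain ⟨c, hc⟩ := h1
    obtain ⟨⟨Q, hQ⟩, -⟩ := GraphSeed.excess hl hm P hw c hc
    have := ord_eq_of_mem_add_single_of_not_mem hQ hc
    exact ⟨c, Q, f, hf, this.1, this.2⟩

/-! ### changing the level -/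

/-- an element of `𝔏(m' D₀)` whose reduction on `c` has the exact order `- m' R_c(Q)` at `Q`. -/
theorem GraphSeed.exists_exact [Infinite k] (hl : G.HasLift) {m' : ℕ} (hm' : G.m₁ hl ≤ m')
    (c : κ) (Q : Place k (Fk c)) :
    ∃ g : F, G.toGraphCore.IsInt (m' • G.D₀) g ∧ (G.S c).red g ≠ 0 ∧
      Q.ord ((G.S c).red g) = -((m' • G.R c) Q) := by
  classical
  by_cases hQ : G.toGraphCore.IsBr ⟨c, Q⟩
  · obtain ⟨a, ha, ha0, hav, -⟩ := G.toGraphCore.exists_interp c (m' • G.R c)
      (fun Q hQ => G.smul_R_br m' hQ) ∅ (by simp) (GraphSeed.hdeg hl hm' c) (fun _ => 1)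
    obtain ⟨g, hg, hgy⟩ := GraphSeed.exists_lift hl hm'
      (G.toGraphCore.update_one_mem_graphRR (G.smul_R_nonneg m') ha hav)
    have hgc : (G.S c).red g = a := by
      have := congrFun hgy c
      rwa [Function.update_self] at this
    refine ⟨g, hg, by rw [hgc]; exact ha0, ?_⟩
    rw [hgc, G.smul_R_br m' hQ, neg_zero]
    exact ((hav Q hQ).ord_eq_zero_iff ha0).mpr one_ne_zero
  · obtain ⟨a, ha, ha0, hav, haT⟩ := G.toGraphCore.exists_interp c (m' • G.R c)
      (fun Q hQ => G.smul_R_br m' hQ) {Q}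
      (fun Q' hQ' => by rw [Finset.mem_singleton.mp hQ']; exact hQ)
      (GraphSeed.hdeg hl hm' c) (fun _ => 0)
    obtain ⟨g, hg, hgy⟩ := GraphSeed.exists_lift hl hm'
      (G.toGraphCore.single_mem_graphRR ha hav)
    have hgc : (G.S c).red g = a := by
      have := congrFun hgy c
      rwa [Pi.single_eq_same] at this
    refine ⟨g, hg, by rw [hgc]; exact ha0, ?_⟩
    rw [hgc]
    exact haT Q (Finset.mem_singleton_self Q)

theorem GraphSeed.add_smul_add_single (G : GraphSeed K F k κ Fk ι) (m m' : ℕ) (P : Place K F) :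
    (m + m') • G.D₀ + Finsupp.single P 1 = (m • G.D₀ + Finsupp.single P 1) + m' • G.D₀ := by
  rw [add_smul]
  abel

/-- **going up**: the type `(c, Q)` at the level `m` gives the type `(c, Q)` at the level
`m + m'`. -/
theorem GraphSeed.HasPole.up [Infinite k] (hl : G.HasLift) {m m' : ℕ} (hm' : G.m₁ hl ≤ m')
    {P : Place K F} {c : κ} {Q : Place k (Fk c)} (h : G.HasPole m P c Q) :
    G.HasPole (m + m') P c Q := by
  obtain ⟨f, hf, hf1, hf2⟩ := h
  obtain ⟨g, hg, hg1, hg2⟩ := GraphSeed.exists_exact hl hm' c Q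
  have hfg := GraphCore.IsInt.mul G.toGraphCore hf hg
  rw [← G.add_smul_add_single] at hfg
  refine ⟨f * g, hfg, ?_, ?_⟩
  · rw [(G.S c).red_mul (hf.2 c) (hg.2 c)]
    exact mul_ne_zero hf1 hg1
  · rw [(G.S c).red_mul (hf.2 c) (hg.2 c), Q.ord_mul hf1 hg1, hf2, hg2, add_smul,
      Finsupp.add_apply]
    ring

/-- **independence of the level**, type `(c, Q)`. -/
theorem GraphSeed.HasPole.level [Infinite k] (hl : G.HasLift) {m m' : ℕ} (hm : G.m₁ hl ≤ m)
    (hm' : G.m₁ hl ≤ m') {P : Place K F} {c : κ} {Q : Place k (Fk c)}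
    (h : G.HasPole m P c Q) : G.HasPole m' P c Q := by
  haveI : Nonempty κ := ⟨c⟩
  have hmm : G.m₁ hl ≤ m + m' := le_trans hm (Nat.le_add_right _ _)
  have hup := h.up hl hm' (m' := m')
  rcases GraphSeed.trichotomy hl hm' P with ⟨c', Q', hQ'⟩ | hN
  · have hup' := hQ'.up hl hm (m' := m)
    rw [add_comm] at hup'
    have := hup.unique hl hmm hup'
    obtain ⟨rfl, hQQ⟩ := Sigma.mk.inj_iff.mp this
    rw [eq_of_heq hQQ]
    exact hQ'
  · exfalso
    obtain ⟨f, hf, h1, h3⟩ := hN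
    have hle₀ : m' • G.D₀ ≤ (m + m') • G.D₀ := by
      rw [add_smul]
      exact le_add_of_nonneg_left (G.smul_D₀_nonneg m)
    have hle : m' • G.D₀ + Finsupp.single P 1 ≤ (m + m') • G.D₀ + Finsupp.single P 1 :=
      add_le_add_left hle₀ _
    have hw := G.toGraphCore.V_mono hle (G.toGraphCore.redAll_mem_V hf)
    have hleR : ∀ c', m' • G.R c' ≤ (m + m') • G.R c' := fun c' => by
      rw [add_smul]
      exact le_add_of_nonneg_left (G.smul_R_nonneg m c')
    have hV : G.toGraphCore.redAll f ∉ G.toGraphCore.V ((m + m') • G.D₀) := by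
      rw [GraphSeed.V_eq hl hmm]
      intro hin
      exact h3 ⟨h1, hin.2⟩
    obtain ⟨h4, h5⟩ := (hup.forall_mem hl hmm hw).2.2 hV
    exact not_mem_riemannRochSpace_of_ord h4 h5 (riemannRochSpace_mono (hleR c) (h1 c))

/-- **independence of the level**, node type. -/
theorem GraphSeed.IsNodeType.level [Infinite k] [Nonempty κ] (hl : G.HasLift) {m m' : ℕ}
    (hm : G.m₁ hl ≤ m) (hm' : G.m₁ hl ≤ m') {P : Place K F} (h : G.IsNodeType m P) :
    G.IsNodeType m' P := by
  rcases GraphSeed.trichotomy hl hm' P with ⟨c', Q', hQ'⟩ | hN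
  · exact absurd h ((hQ'.level hl hm' hm).not_isNodeType hl hm)
  · exact hN

/-! ### the reduction map -/

open Classical in
/-- **The reduction map of the places** attached to a seed: `some ⟨c, Q⟩` if the type of `P` is
`(c, Q)`, `none` if `P` is of node type. -/
def GraphSeed.rmap (G : GraphSeed K F k κ Fk ι) (hl : G.HasLift) (P : Place K F) :
    Option (Σ c, Place k (Fk c)) :=
  if h : ∃ x : Σ c, Place k (Fk c), G.HasPole (G.m₁ hl) P x.1 x.2 then some h.choose else none

theorem GraphSeed.rmap_eq_some_iff [Infinite k] (hl : G.HasLift) {P : Place K F} {c : κ}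
    {Q : Place k (Fk c)} : G.rmap hl P = some ⟨c, Q⟩ ↔ G.HasPole (G.m₁ hl) P c Q := by
  classical
  unfold GraphSeed.rmap
  constructor
  · intro h
    split_ifs at h with h1
    have e : h1.choose = ⟨c, Q⟩ := Option.some.inj h
    have := h1.choose_spec
    rw [e] at this
    exact this
  · intro h
    have h1 : ∃ x : Σ c, Place k (Fk c), G.HasPole (G.m₁ hl) P x.1 x.2 := ⟨⟨c, Q⟩, h⟩
    rw [dif_pos h1]
    have := h1.choose_spec.unique hl le_rfl h
    exact congrArg some this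

theorem GraphSeed.rmap_eq_none_iff [Infinite k] [Nonempty κ] (hl : G.HasLift) {P : Place K F} :
    G.rmap hl P = none ↔ G.IsNodeType (G.m₁ hl) P := by
  classical
  unfold GraphSeed.rmap
  constructor
  · intro h
    split_ifs at h with h1
    rcases GraphSeed.trichotomy hl le_rfl P with ⟨c, Q, h3⟩ | h3
    · exact absurd ⟨⟨c, Q⟩, h3⟩ h1
    · exact h3
  · intro h
    have h1 : ¬ ∃ x : Σ c, Place k (Fk c), G.HasPole (G.m₁ hl) P x.1 x.2 :=
      fun ⟨x, hx⟩ => hx.not_isNodeType hl le_rfl h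
    rw [dif_neg h1]

/-- the type at every level `m ≥ m₁`, from the reduction map. -/
theorem GraphSeed.hasPole_of_rmap [Infinite k] (hl : G.HasLift) {P : Place K F} {c : κ}
    {Q : Place k (Fk c)} (h : G.rmap hl P = some ⟨c, Q⟩) {m : ℕ} (hm : G.m₁ hl ≤ m) :
    G.HasPole m P c Q :=
  ((GraphSeed.rmap_eq_some_iff hl).mp h).level hl le_rfl hm

theorem GraphSeed.isNodeType_of_rmap [Infinite k] [Nonempty κ] (hl : G.HasLift)
    {P : Place K F} (h : G.rmap hl P = none) {m : ℕ} (hm : G.m₁ hl ≤ m) : G.IsNodeType m P :=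
  ((GraphSeed.rmap_eq_none_iff hl).mp h).level hl le_rfl hm

/-- the reduction map, from the type at some level `m ≥ m₁`. -/
theorem GraphSeed.rmap_of_hasPole [Infinite k] (hl : G.HasLift) {P : Place K F} {c : κ}
    {Q : Place k (Fk c)} {m : ℕ} (hm : G.m₁ hl ≤ m) (h : G.HasPole m P c Q) :
    G.rmap hl P = some ⟨c, Q⟩ :=
  (GraphSeed.rmap_eq_some_iff hl).mpr (h.level hl hm le_rfl)

theorem GraphSeed.rmap_of_isNodeType [Infinite k] [Nonempty κ] (hl : G.HasLift)
    {P : Place K F} {m : ℕ} (hm : G.m₁ hl ≤ m) (h : G.IsNodeType m P) : G.rmap hl P = none :=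
  (GraphSeed.rmap_eq_none_iff hl).mpr (h.level hl hm le_rfl)

/-- a witness of the type `(c, Q)` at a level `m ≥ m₁` determines the reduction. -/
theorem GraphSeed.rmap_of_witness [Infinite k] (hl : G.HasLift) {P : Place K F} {c : κ}
    {Q : Place k (Fk c)} {m : ℕ} (hm : G.m₁ hl ≤ m) {f : F}
    (hf : G.toGraphCore.IsInt (m • G.D₀ + Finsupp.single P 1) f) (h1 : (G.S c).red f ≠ 0)
    (h2 : Q.ord ((G.S c).red f) = -((m • G.R c) Q) - 1) : G.rmap hl P = some ⟨c, Q⟩ :=
  GraphSeed.rmap_of_hasPole hl hm ⟨f, hf, h1, h2⟩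

end Fermat.Agent.BadRedG
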