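import Mathlib
import Fermat.Agent.Lib.BadRed.Graph.Deuring.TypeB
import Fermat.Agent.Lib.BadRed.Graph.Deuring.TypeDual
import Fermat.Agent.Lib.BadRed.Graph.Deuring.TypeDef

set_option autoImplicit false
set_option linter.style.haveILetI false
set_option linter.unusedSectionVars false

/-!
# Cluster G, graph Deuring construction: the reduction map of a seed, ASSEMBLY of `GraphType`
(helper20; port of `Nodal/Deuring2/Type.lean`)

`G.graphType hl : GraphType G` with `r = G.rmap hl` (`TypeB.lean`), all the characteristic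
properties from `TypeDual.lean` (helper71).
-/

noncomputable section

open AlgebraicCurve Fermat.Agent.RR Fermat.Agent.Deuring

namespace Fermat.Agent.BadRedG

open Fermat.Agent.BadRed

variable {K F k : Type*} [Field K] [Field F] [Algebra K F] [Field k]
  {κ : Type*} {Fk : κ → Type*} [∀ c, Field (Fk c)] [∀ c, Algebra k (Fk c)] {ι : Type*}
  [Fintype κ] [Fintype ι]

/-- **The reduction map of places** attached to a seed, with its characteristic properties. -/
def GraphSeed.graphType [Infinite k] [Nonempty κ] (G : GraphSeed K F k κ Fk ι)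
    (hl : G.HasLift) : GraphType G where
  r := G.rmap hl
  r_ne_node₁ := fun P i h => by
    obtain ⟨f, hf, hne, hord⟩ := (GraphSeed.rmap_eq_some_iff hl).mp h
    exact G.td_ne_node₁ hl hf hne hord i rfl
  r_ne_node₂ := fun P i h => by
    obtain ⟨f, hf, hne, hord⟩ := (GraphSeed.rmap_eq_some_iff hl).mp h
    exact G.td_ne_node₂ hl hf hne hord i rfl
  pole := fun P c Q h => by
    obtain ⟨f, hf, hne, hord⟩ := (GraphSeed.rmap_eq_some_iff hl).mp h
    exact ⟨G.m₁ hl, f, hf, hne, hord⟩
  zero := fun P c Q h => by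
    obtain ⟨f, hf, hne, hord⟩ := (GraphSeed.rmap_eq_some_iff hl).mp h
    exact G.td_zero hl hf hne hord
  unit := fun P c Q hQ h => by
    rcases GraphSeed.trichotomy hl le_rfl P with ⟨c', Q', f, hf, hne, hord⟩ | ⟨f, hf, hfL, hn⟩
    · have hQQ' : (⟨c, Q⟩ : Σ c, Place k (Fk c)) ≠ ⟨c', Q'⟩ := by
        intro e
        apply h
        rw [e]
        exact (GraphSeed.rmap_eq_some_iff hl).mpr ⟨f, hf, hne, hord⟩
      exact G.td_unit hl hf hne hord c Q hQ hQQ'
    · exact G.td_unitN hl hf hfL hn c Q hQ
  node_unit := fun P X h i => by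
    obtain ⟨c, Q⟩ := X
    obtain ⟨f, hf, hne, hord⟩ := (GraphSeed.rmap_eq_some_iff hl).mp h
    exact G.td_node_unit hl hf hne hord i
  supp := fun P hP => by
    rcases GraphSeed.trichotomy hl le_rfl P with ⟨c', Q', f, hf, hne, hord⟩ | ⟨f, hf, hfL, hn⟩
    · exact ⟨c', Q', (GraphSeed.rmap_eq_some_iff hl).mpr ⟨f, hf, hne, hord⟩,
        G.td_supp hP hf hne hord⟩
    · exact absurd (G.td_suppN hP hf hfL hn) id

@[simp]
theorem GraphSeed.graphType_r [Infinite k] [Nonempty κ] (G : GraphSeed K F k κ Fk ι)
    (hl : G.HasLift) : (G.graphType hl).r = G.rmap hl := rfl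

/-- the places of node type are the places without reduction. -/
theorem GraphSeed.graphType_r_eq_none_iff [Infinite k] [Nonempty κ]
    (G : GraphSeed K F k κ Fk ι) (hl : G.HasLift) {P : Place K F} :
    (G.graphType hl).r P = none ↔ G.IsNodeType (G.m₁ hl) P :=
  GraphSeed.rmap_eq_none_iff hl

end Fermat.Agent.BadRedG
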