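import Mathlib
import Fermat.Agent.Lib.BadRed.Graph.Deuring.Type
import Fermat.Agent.Lib.BadRed.Graph.Deuring.PushAll
import Fermat.Agent.Lib.BadRed.Graph.Deuring.CanonPerm
import Fermat.Agent.Lib.BadRed.Graph.Deuring.MainOf

set_option autoImplicit false
set_option linter.style.haveILetI false
set_option linter.unusedSectionVars false

/-!
# Cluster G: MAIN THEOREM of the graph Deuring construction (SEED ⇒ GraphSetup)  (helper20)

For a seed `G : GraphSeed K F k κ Fk ι` (`Graph/Seed.lean`), `k` infinite, `κ` nonempty: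

* `G.graphSetup : GraphSetup K F k κ Fk ι` : the graph reduction package, with the SAME
  `S src tgt s₁ s₂` (definitionally) and `r = G.rmap G.hasLift`;
* `G.graphSetup_genusRel` : the genus relation;
* `G.graphSetup_hasLift` : the lifting property (LIFT);
* `G.graphSetup_supp`, `G.graphSetup_isOrdDiv_D₀` : the seed divisor is ordinary;
* `G.graphSetup_r_eq_of_pole` : the reduction of a place is determined by ONE pole witness;
* `G.graphSetup_pole`, `_zero`, `_unit`, `_node_unit` : the characteristic properties of `r`;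
* `G.graphSetup_pushAll`, `G.graphSetup_mapDomain_D₀`;
* `G.graphSetup_canon` : canonicity (automorphisms trivial on the special fibre);
* `G.graphSetup_rSmulPerm`, `G.graphSetup_ordSmulPerm` : canonicity for the automorphisms
  which permute the components;
* `G.graphSetup_key` : the graph KEY LEMMA (`k` algebraically closed);
* `G.graphSeedStatement : GraphSeedStatement G`.

Unconditional (no hypothesis besides the seed); all the pieces are in `Graph/Deuring/*.lean`.
-/

noncomputable section

open AlgebraicCurve Fermat.Agent.RR Fermat.Agent.Deuring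

namespace Fermat.Agent.BadRedG

open Fermat.Agent.BadRed

variable {K F k : Type*} [Field K] [Field F] [Algebra K F] [Field k]
  {κ : Type*} {Fk : κ → Type*} [∀ c, Field (Fk c)] [∀ c, Algebra k (Fk c)] {ι : Type*}
  [Fintype κ] [Fintype ι]

/-- **The reduction type of a seed** (unconditional). -/
def GraphSeed.gType [Infinite k] [Nonempty κ] (G : GraphSeed K F k κ Fk ι) : GraphType G :=
  G.graphType G.hasLift

/-- **The graph reduction package of a seed.** -/
def GraphSeed.graphSetup [Infinite k] [Nonempty κ] (G : GraphSeed K F k κ Fk ι) :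
    GraphSetup K F k κ Fk ι :=
  G.gType.setup G.gType.push

section

variable [Infinite k] [Nonempty κ] (G : GraphSeed K F k κ Fk ι)

@[simp] theorem GraphSeed.graphSetup_S : G.graphSetup.S = G.S := rfl

@[simp] theorem GraphSeed.graphSetup_src : G.graphSetup.src = G.src := rfl

@[simp] theorem GraphSeed.graphSetup_tgt : G.graphSetup.tgt = G.tgt := rfl

@[simp] theorem GraphSeed.graphSetup_s₁ : G.graphSetup.s₁ = G.s₁ := rfl

@[simp] theorem GraphSeed.graphSetup_s₂ : G.graphSetup.s₂ = G.s₂ := rfl

@[simp] theorem GraphSeed.graphSetup_r : G.graphSetup.r = G.rmap G.hasLift := rfl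

theorem GraphSeed.gType_r : G.gType.r = G.rmap G.hasLift := rfl

/-- the genus relation. -/
theorem GraphSeed.graphSetup_genusRel : G.graphSetup.GenusRel :=
  G.gType.setup_genusRel G.gType.push

/-- (LIFT). -/
theorem GraphSeed.graphSetup_hasLift : G.graphSetup.HasLift G.D₀ G.R :=
  G.gType.setup_hasLift G.gType.push

/-- (SUPP): the places of the support of `D₀` reduce into the supports of the `R c`. -/
theorem GraphSeed.graphSetup_supp (P : Place K F) (hP : G.D₀ P ≠ 0) :
    ∃ (c : κ) (Q : Place k (Fk c)), G.graphSetup.r P = some ⟨c, Q⟩ ∧ G.R c Q ≠ 0 :=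
  G.gType.setup_supp G.gType.push P hP

/-- the seed divisor is ordinary. -/
theorem GraphSeed.graphSetup_isOrdDiv_D₀ : G.graphSetup.IsOrdDiv G.D₀ :=
  G.gType.setup_isOrdDiv_D₀ G.gType.push

/-- the multiples of the seed divisor are ordinary. -/
theorem GraphSeed.graphSetup_isOrdDiv_smul_D₀ (m : ℕ) : G.graphSetup.IsOrdDiv (m • G.D₀) :=
  G.gType.setup_isOrdDiv_smul_D₀ G.gType.push m

/-- **uniqueness of the reduction**: a pole of order `m R_c(Q) + 1` at the smooth point `Q` of a
function of `𝔏(m D₀ + P)` forces `r P = ⟨c, Q⟩` (any level `m`). -/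
theorem GraphSeed.graphSetup_r_eq_of_pole {P : Place K F} {c : κ} {Q : Place k (Fk c)}
    (hQ : G.toGraphCore.IsSmoothPt c Q) {m : ℕ} {f : F}
    (hf : G.toGraphCore.IsInt (m • G.D₀ + Finsupp.single P 1) f) (hred : (G.S c).red f ≠ 0)
    (hord : Q.ord ((G.S c).red f) = -((m • G.R c) Q) - 1) :
    G.graphSetup.r P = some ⟨c, Q⟩ :=
  G.gType.r_eq_of_pole hQ hf hred hord

/-- the reduction of a place is a smooth point. -/
theorem GraphSeed.graphSetup_isSmoothPt {P : Place K F} {c : κ} {Q : Place k (Fk c)}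
    (h : G.graphSetup.r P = some ⟨c, Q⟩) : G.toGraphCore.IsSmoothPt c Q :=
  ⟨fun i hi => G.gType.r_ne_node₁ P i (hi ▸ h), fun i hi => G.gType.r_ne_node₂ P i (hi ▸ h)⟩

/-- a place which reduces to `⟨c, Q⟩` has a pole witness at EVERY level `m ≥ m₁`. -/
theorem GraphSeed.graphSetup_hasPole {P : Place K F} {c : κ} {Q : Place k (Fk c)}
    (h : G.graphSetup.r P = some ⟨c, Q⟩) {m : ℕ} (hm : G.m₁ G.hasLift ≤ m) :
    G.HasPole m P c Q :=
  GraphSeed.hasPole_of_rmap G.hasLift h hm

/-- a place without reduction is of node type at EVERY level `m ≥ m₁`. -/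
theorem GraphSeed.graphSetup_isNodeType {P : Place K F} (h : G.graphSetup.r P = none) {m : ℕ}
    (hm : G.m₁ G.hasLift ≤ m) : G.IsNodeType m P :=
  GraphSeed.isNodeType_of_rmap G.hasLift h hm

theorem GraphSeed.graphSetup_pole (P : Place K F) (c : κ) (Q : Place k (Fk c))
    (h : G.graphSetup.r P = some ⟨c, Q⟩) : ∃ (m : ℕ) (f : F),
    G.toGraphCore.IsInt (m • G.D₀ + Finsupp.single P 1) f ∧ (G.S c).red f ≠ 0 ∧
      Q.ord ((G.S c).red f) = -((m • G.R c) Q) - 1 :=
  G.gType.pole P c Q h

theorem GraphSeed.graphSetup_zero (P : Place K F) (c : κ) (Q : Place k (Fk c))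
    (h : G.graphSetup.r P = some ⟨c, Q⟩) : ∃ (m : ℕ) (f : F),
    G.toGraphCore.IsInt (m • G.D₀ - Finsupp.single P 1) f ∧ (G.S c).red f ≠ 0 ∧
      Q.ord ((G.S c).red f) = -((m • G.R c) Q) + 1 :=
  G.gType.zero P c Q h

theorem GraphSeed.graphSetup_unit (P : Place K F) (c : κ) (Q : Place k (Fk c))
    (hQ : G.toGraphCore.IsSmoothPt c Q) (h : G.graphSetup.r P ≠ some ⟨c, Q⟩) :
    ∃ (m : ℕ) (f : F), G.toGraphCore.IsInt (m • G.D₀ - Finsupp.single P 1) f ∧
      (G.S c).red f ≠ 0 ∧ Q.ord ((G.S c).red f) = -((m • G.R c) Q) :=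
  G.gType.unit P c Q hQ h

theorem GraphSeed.graphSetup_node_unit (P : Place K F) (X : Σ c, Place k (Fk c))
    (h : G.graphSetup.r P = some X) (i : ι) : ∃ (m : ℕ) (f : F),
    G.toGraphCore.IsInt (m • G.D₀ - Finsupp.single P 1) f ∧
      ValAt (G.s₁ i) ((G.S (G.src i)).red f) 1 ∧ ValAt (G.s₂ i) ((G.S (G.tgt i)).red f) 1 :=
  G.gType.node_unit P X h i

/-- push at the smooth points, for the units of ALL the valuation rings. -/
theorem GraphSeed.graphSetup_pushAll : G.gType.PushAll := G.gType.pushAll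

/-- `r_* D₀ = R` at the smooth points. -/
theorem GraphSeed.graphSetup_mapDomain_D₀ {c : κ} {Q : Place k (Fk c)}
    (hQ : G.toGraphCore.IsSmoothPt c Q) :
    Finsupp.mapDomain G.graphSetup.r G.D₀ (some ⟨c, Q⟩) = G.R c Q :=
  G.gType.mapDomain_D₀ hQ

/-- **canonicity**: an automorphism which preserves the valuation rings, is trivial on the
residue fields and fixes `D₀` commutes with the reduction map. -/
theorem GraphSeed.graphSetup_canon (t : SemilinearAut K F)
    (hm : ∀ c (f : F), f ∈ (G.S c).Ov → t • f ∈ (G.S c).Ov)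
    (hr : ∀ c (f : F), f ∈ (G.S c).Ov → (G.S c).red (t • f) = (G.S c).red f)
    (hD : ∀ P, G.D₀ (t • P) = G.D₀ P) (P : Place K F) :
    G.graphSetup.r (t • P) = G.graphSetup.r P :=
  G.gType.canon t hm hr hD P

/-- **canonicity for the automorphisms of the seed which permute the components**. -/
theorem GraphSeed.graphSetup_rSmulPerm (t : SemilinearAut K F) (π : Equiv.Perm κ)
    (e : ∀ c, Fk c ≃ₐ[k] Fk (π c)) (ht : G.IsPermAut t π e) (P : Place K F) (c : κ)
    (Q : Place k (Fk c)) (h : G.graphSetup.r P = some ⟨c, Q⟩) :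
    ∃ Q' : Place k (Fk (π c)), PlaceCorr (e c) Q Q' ∧
      G.graphSetup.r (t • P) = some ⟨π c, Q'⟩ :=
  G.gType.rSmulPerm t π e ht P c Q h

/-- the automorphisms of the seed preserve the ordinary places. -/
theorem GraphSeed.graphSetup_ordSmulPerm (t : SemilinearAut K F) (π : Equiv.Perm κ)
    (e : ∀ c, Fk c ≃ₐ[k] Fk (π c)) (ht : G.IsPermAut t π e) (P : Place K F)
    (hP : G.graphSetup.IsOrd P) : G.graphSetup.IsOrd (t • P) :=
  G.gType.ordSmulPerm t π e ht P hP

end

/-- **The graph KEY LEMMA** for the package of a seed: the kernel of reduction has no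
`m`-torsion, `m` a unit of `A`. -/
theorem GraphSeed.graphSetup_key [IsAlgClosed k] [Infinite k] [Nonempty κ]
    (G : GraphSeed K F k κ Fk ι) : GraphKeyStatement G.graphSetup :=
  G.gType.setup_key G.gType.push

/-- **SEED ⟹ GraphSetup**: the statement of `Graph/Seed.lean`. -/
theorem GraphSeed.graphSeedStatement [Infinite k] [Nonempty κ] (G : GraphSeed K F k κ Fk ι) :
    GraphSeedStatement G := by
  refine ⟨G.graphSetup, rfl, rfl, rfl, HEq.rfl, HEq.rfl, G.graphSetup_genusRel,
    fun t hm hr hD P => G.graphSetup_canon t hm hr (fun P' => ?_) P⟩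
  have := SemilinearAut.divisor_smul_apply_smul t G.D₀ P'
  rwa [hD] at this

end Fermat.Agent.BadRedG
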