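import Mathlib
import Fermat.Agent.Lib.BadRed.Graph.Deuring.Main
import Fermat.Agent.Lib.BadRed.Graph.GlueWire

set_option autoImplicit false

/-!
# Cluster G, abstract graph package: the END of the abstract chain (helper20)

For a seed `G : GraphSeed K F k κ Fk ι` the package `N := G.graphSetup` of
`Graph/Deuring/Main.lean` satisfies, UNCONDITIONALLY, everything that the CORE wiring
(`S36/G/CoreWire.lean`) asks of the abstract graph package:

* `GraphSeed.graphSetup_ord   : GraphOrdStatement G.graphSetup`                (`[Infinite k]`)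
* `GraphSeed.graphSetup_toric : GraphToricStatement G.graphSetup`              (`[IsAlgClosed k]`)
* `GraphSeed.graphSetup_mapDomain_D₀_all`, `GraphSeed.graphSetup_redDiv_D₀`,
  `GraphSeed.graphSetup_redDiv_smul_D₀ : G.graphSetup.redDiv c (m • G.D₀) = m • G.R c`
* `GraphSeed.graphSetup_gBig_of_le : G.bigBound ≤ m → GBig G.graphSetup (m • G.D₀)`,
  `GraphSeed.graphSetup_gBig : ∃ m₀, ∀ m, m₀ ≤ m → GBig G.graphSetup (m • G.D₀)`
* `GraphSeed.graphSetup_exists_gBig_ge`: above every effective ordinary divisor there is a big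
  divisor of the shape `m • D₀ + E`.
-/

noncomputable section

open AlgebraicCurve Fermat.Agent.RR Fermat.Agent.Deuring

namespace Fermat.Agent.BadRedG

open Fermat.Agent.BadRed

variable {K F k : Type*} [Field K] [Field F] [Algebra K F] [Field k]
  {κ : Type*} {Fk : κ → Type*} [∀ c, Field (Fk c)] [∀ c, Algebra k (Fk c)] {ι : Type*}
  [Fintype κ] [Fintype ι]

section

variable [Infinite k] [Nonempty κ] (G : GraphSeed K F k κ Fk ι)

/-- **(G-ORD)** for the package of a seed. -/
theorem GraphSeed.graphSetup_ord : GraphOrdStatement G.graphSetup :=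
  graphOrd G.graphSetup

/-- `r_* D₀ = R` at ALL the points (at the branches both sides vanish). -/
theorem GraphSeed.graphSetup_mapDomain_D₀_all (c : κ) (Q : Place k (Fk c)) :
    Finsupp.mapDomain G.graphSetup.r G.D₀ (some ⟨c, Q⟩) = G.R c Q := by
  classical
  by_cases hQ : G.toGraphCore.IsSmoothPt c Q
  · exact G.graphSetup_mapDomain_D₀ hQ
  · have hR : G.R c Q = 0 := by
      by_contra hne
      apply hQ
      refine ⟨fun i hi => ?_, fun i hi => ?_⟩
      · obtain ⟨rfl, hq⟩ := Sigma.mk.inj_iff.mp hi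
        rw [eq_of_heq hq] at hne
        exact hne (G.R_node₁ i)
      · obtain ⟨rfl, hq⟩ := Sigma.mk.inj_iff.mp hi
        rw [eq_of_heq hq] at hne
        exact hne (G.R_node₂ i)
    rw [hR, Finsupp.mapDomain, Finsupp.sum_apply]
    refine Finset.sum_eq_zero fun P _ => ?_
    show (Finsupp.single (G.graphSetup.r P) (G.D₀ P)) (some ⟨c, Q⟩) = 0
    rw [Finsupp.single_apply, if_neg]
    intro h
    exact hQ (G.graphSetup_isSmoothPt h)

/-- the reduction of the seed divisor on the component `c` is `R c`. -/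
theorem GraphSeed.graphSetup_redDiv_D₀ (c : κ) : G.graphSetup.redDiv c G.D₀ = G.R c := by
  ext Q
  rw [GraphSetup.redDiv_apply]
  exact G.graphSetup_mapDomain_D₀_all c Q

/-- the reduction of `m D₀` on the component `c` is `m R c`. -/
theorem GraphSeed.graphSetup_redDiv_smul_D₀ (c : κ) (m : ℕ) :
    G.graphSetup.redDiv c (m • G.D₀) = m • G.R c := by
  ext Q
  rw [GraphSetup.redDiv_apply, Finsupp.mapDomain_smul, Finsupp.smul_apply, Finsupp.smul_apply,
    G.graphSetup_mapDomain_D₀_all c Q]

/-- a bound for the multiples of the seed divisor which are big. -/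
def GraphSeed.bigBound (_G : GraphSeed K F k κ Fk ι) : ℕ :=
  (Finset.univ.sup fun c : κ => 2 * genusFF k (Fk c)) + Fintype.card ι

omit [Infinite k] [Nonempty κ] in
theorem GraphSeed.two_genus_le_bigBound (G : GraphSeed K F k κ Fk ι) (c : κ) :
    2 * genusFF k (Fk c) + Fintype.card ι ≤ G.bigBound := by
  have h : (fun c : κ => 2 * genusFF k (Fk c)) c ≤
      Finset.univ.sup fun c : κ => 2 * genusFF k (Fk c) :=
    Finset.le_sup (f := fun c : κ => 2 * genusFF k (Fk c)) (Finset.mem_univ c)
  unfold GraphSeed.bigBound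
  simpa using h

/-- **the large multiples of the seed divisor are big base divisors.** -/
theorem GraphSeed.graphSetup_gBig_of_le {m : ℕ} (hm : G.bigBound ≤ m) :
    GBig G.graphSetup (m • G.D₀) := by
  refine ⟨?_, G.graphSetup_isOrdDiv_smul_D₀ m, fun c => ?_⟩
  · exact smul_nonneg (Nat.zero_le m) G.D₀_nonneg
  · rw [G.graphSetup_redDiv_smul_D₀ c m, map_nsmul]
    have h1 : (1 : ℤ) ≤ Divisor.degree (G.R c) := G.R_pos c
    have h2 := G.two_genus_le_bigBound c
    have h3 : ((2 * genusFF k (Fk c) + Fintype.card ι : ℕ) : ℤ) ≤ (m : ℤ) := by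
      exact_mod_cast h2.trans hm
    have h4 : (m : ℤ) ≤ m • Divisor.degree (G.R c) := by
      rw [nsmul_eq_mul]
      nlinarith [Nat.cast_nonneg (α := ℤ) m]
    push_cast at h3
    linarith

theorem GraphSeed.graphSetup_gBig :
    ∃ m₀ : ℕ, ∀ m : ℕ, m₀ ≤ m → GBig G.graphSetup (m • G.D₀) :=
  ⟨G.bigBound, fun _ hm => G.graphSetup_gBig_of_le hm⟩

/-- above every effective ordinary divisor there is a big base divisor `m D₀ + E`. -/
theorem GraphSeed.graphSetup_exists_gBig_ge {E : Divisor K F} (hE : 0 ≤ E)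
    (hEord : G.graphSetup.IsOrdDiv E) {m : ℕ} (hm : G.bigBound ≤ m) :
    GBig G.graphSetup (m • G.D₀ + E) ∧ E ≤ m • G.D₀ + E :=
  ⟨(G.graphSetup_gBig_of_le hm).add hE hEord,
    le_add_of_nonneg_left (G.graphSetup_gBig_of_le hm).nonneg⟩

end

/-- **(G-TORIC)** for the package of a seed. -/
theorem GraphSeed.graphSetup_toric [IsAlgClosed k] [Infinite k] [Nonempty κ]
    (G : GraphSeed K F k κ Fk ι) : GraphToricStatement G.graphSetup :=
  graphToric_of_key G.graphSetup G.graphSetup_key

end Fermat.Agent.BadRedG
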