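import Mathlib
import Fermat.Agent.Lib.BadRed.Graph.Deuring.PermNode
import Fermat.Agent.Lib.BadRed.Graph.GraphSeedOfX

set_option autoImplicit false
set_option linter.unusedSectionVars false

/-!
# Cluster G, graph Deuring construction: the automorphisms of the seed of a function `x`
(helper82; seat SEED-PERM, abstract part)

For the seed `G = C.graphSeedOfX c₀ x ..` (`D₀ = (x)_∞`, `R c = (red_c x)_∞`,
`Graph/GraphSeedOfX.lean`) the conditions `D₀_smul`, `R_smul` of `GraphSeed.IsPermAutW` follow from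
the invariance of the POLE DIVISORS of `x` and of its reductions; in particular from `t • x = x`.

* `poleDiv_smul_of_smul_eq` : `(x)_∞ (t • P) = (x)_∞ P` if `t • x = x`;
* `poleDiv_placeCorr` : `(e y)_∞ Q' = (y)_∞ Q` for corresponding places;
* `placeCorr_pos_iff` : the zeros of `y` correspond to the zeros of `e y`;
* `GraphCore.graphSeedOfX_isPermAutW_of_poleDiv` : `IsPermAutW` from `mem`, `red`, the invariance of
  the pole divisors, the existence of the images of the places, and `br_iff`;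
* `GraphCore.graphSeedOfX_isPermAutW` : the same for `t • x = x`.
-/

noncomputable section

open AlgebraicCurve Fermat.Agent.RR Fermat.Agent.Deuring

namespace Fermat.Agent.BadRedG

open Fermat.Agent.BadRed

section Pole

variable {K F : Type*} [Field K] [Field F] [Algebra K F]

/-- the pole divisor of a `t`-invariant function is `t`-stable. -/
theorem poleDiv_smul_of_smul_eq (h : IsRRField K F) (t : SemilinearAut K F) {x : F}
    (hx : t • x = x) (P : Place K F) : poleDiv h x (t • P) = poleDiv h x P := by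
  rw [poleDiv_apply, poleDiv_apply]
  have h1 := SemilinearAut.ord_smul t P x
  rw [hx] at h1
  rw [h1]

variable {k L L' : Type*} [Field k] [Field L] [Field L'] [Algebra k L] [Algebra k L']

/-- the pole divisors at corresponding places. -/
theorem poleDiv_placeCorr (h : IsRRField k L) (h' : IsRRField k L') {e : L ≃ₐ[k] L'}
    {Q : Place k L} {Q' : Place k L'} (hc : PlaceCorr e Q Q') (y : L) :
    poleDiv h' (e y) Q' = poleDiv h y Q := by
  rw [poleDiv_apply, poleDiv_apply, hc y]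

/-- the zeros of `y` correspond to the zeros of `e y`. -/
theorem placeCorr_pos_iff {e : L ≃ₐ[k] L'} {Q : Place k L} {Q' : Place k L'}
    (hc : PlaceCorr e Q Q') (y : L) : 0 < Q'.ord (e y) ↔ 0 < Q.ord y := by
  rw [hc y]

/-- the zeros of `y` correspond to the zeros of `a • e y`, `a ≠ 0`. -/
theorem placeCorr_pos_iff_of_smul {e : L ≃ₐ[k] L'} {Q : Place k L} {Q' : Place k L'}
    (hc : PlaceCorr e Q Q') (y : L) {y' : L'} {a : k} (ha : a ≠ 0) (hy : e y = a • y') :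
    0 < Q'.ord y' ↔ 0 < Q.ord y := by
  have h1 : y' = e (a⁻¹ • y) := by
    rw [map_smul, hy, smul_smul, inv_mul_cancel₀ ha, one_smul]
  rw [h1, hc (a⁻¹ • y)]
  rcases eq_or_ne y 0 with rfl | hy0
  · rw [smul_zero]
  · have h2 : a⁻¹ • y = algebraMap k L a⁻¹ * y := Algebra.smul_def _ _
    have h3 : algebraMap k L a⁻¹ ≠ 0 := by
      rw [ne_eq, map_eq_zero_iff _ (algebraMap k L).injective]
      exact inv_ne_zero ha
    rw [h2, Place.ord_mul _ h3 hy0, Fermat.Agent.S24Res.ord_algebraMap, zero_add]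

end Pole

variable {K F k : Type*} [Field K] [Field F] [Algebra K F] [Field k]
  {κ : Type*} {Fk : κ → Type*} [∀ c, Field (Fk c)] [∀ c, Algebra k (Fk c)] {ι : Type*}
  [Fintype κ] [Fintype ι] [Infinite k]

/-- **the weak automorphisms of the seed of `x`**, from the invariance of the pole divisors. -/
theorem GraphCore.graphSeedOfX_isPermAutW_of_poleDiv (C : GraphCore K F k κ Fk ι)
    (c₀ : κ) (x : F) (hx : ∀ c, x ∈ (C.S c).Ov)
    (hpos : ∀ c, 0 < Divisor.degree (poleDiv (C.S c).hFk ((C.S c).red x)))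
    (hn₁ : ∀ i, 0 ≤ (C.s₁ i).ord ((C.S (C.src i)).red x))
    (hn₂ : ∀ i, 0 ≤ (C.s₂ i).ord ((C.S (C.tgt i)).red x))
    (hdeg : Divisor.degree (poleDiv (C.S c₀).hF x) ≤
      ∑ c, Divisor.degree (poleDiv (C.S c).hFk ((C.S c).red x)))
    (hnode : ∀ (m : ℕ) (f : F), f ∈ riemannRochSpace (m • poleDiv (C.S c₀).hF x) →
      (∀ c, f ∈ (C.S c).Ov) →
      ∀ i, ∃ a : k, ValAt (C.s₁ i) ((C.S (C.src i)).red f) a ∧
        ValAt (C.s₂ i) ((C.S (C.tgt i)).red f) a)
    (hgenus : genusFF K F + Fintype.card κ ≤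
      (∑ c, genusFF k (Fk c)) + Fintype.card ι + 1)
    (t : SemilinearAut K F) (π : Equiv.Perm κ) (e : ∀ c, Fk c ≃ₐ[k] Fk (π c))
    (mem : ∀ (c : κ) (f : F), f ∈ (C.S c).Ov → t • f ∈ (C.S (π c)).Ov)
    (red : ∀ (c : κ) (f : F), f ∈ (C.S c).Ov →
      (C.S (π c)).red (t • f) = e c ((C.S c).red f))
    (hD : ∀ P : Place K F, poleDiv (C.S c₀).hF x (t • P) = poleDiv (C.S c₀).hF x P)
    (hR : ∀ c, poleDiv (C.S (π c)).hFk ((C.S (π c)).red (t • x)) =
      poleDiv (C.S (π c)).hFk ((C.S (π c)).red x))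
    (hex : ∀ (c : κ) (Q : Place k (Fk c)), ∃ Q' : Place k (Fk (π c)), PlaceCorr (e c) Q Q')
    (hbr : ∀ (c : κ) (Q : Place k (Fk c)) (Q' : Place k (Fk (π c))), PlaceCorr (e c) Q Q' →
      (C.IsBr ⟨c, Q⟩ ↔ C.IsBr ⟨π c, Q'⟩)) :
    (C.graphSeedOfX c₀ x hx hpos hn₁ hn₂ hdeg hnode hgenus).IsPermAutW t π e where
  mem := mem
  red := red
  D₀_smul := hD
  R_smul := by
    intro c Q
    obtain ⟨Q', hQ'⟩ := hex c Q
    refine ⟨Q', hQ', ?_⟩
    show poleDiv (C.S (π c)).hFk ((C.S (π c)).red x) Q' =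
      poleDiv (C.S c).hFk ((C.S c).red x) Q
    rw [← hR c, red c x (hx c)]
    exact poleDiv_placeCorr _ _ hQ' _
  br_iff := hbr

/-- **the weak automorphisms of the seed of `x`**, `t • x = x`. -/
theorem GraphCore.graphSeedOfX_isPermAutW (C : GraphCore K F k κ Fk ι)
    (c₀ : κ) (x : F) (hx : ∀ c, x ∈ (C.S c).Ov)
    (hpos : ∀ c, 0 < Divisor.degree (poleDiv (C.S c).hFk ((C.S c).red x)))
    (hn₁ : ∀ i, 0 ≤ (C.s₁ i).ord ((C.S (C.src i)).red x))
    (hn₂ : ∀ i, 0 ≤ (C.s₂ i).ord ((C.S (C.tgt i)).red x))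
    (hdeg : Divisor.degree (poleDiv (C.S c₀).hF x) ≤
      ∑ c, Divisor.degree (poleDiv (C.S c).hFk ((C.S c).red x)))
    (hnode : ∀ (m : ℕ) (f : F), f ∈ riemannRochSpace (m • poleDiv (C.S c₀).hF x) →
      (∀ c, f ∈ (C.S c).Ov) →
      ∀ i, ∃ a : k, ValAt (C.s₁ i) ((C.S (C.src i)).red f) a ∧
        ValAt (C.s₂ i) ((C.S (C.tgt i)).red f) a)
    (hgenus : genusFF K F + Fintype.card κ ≤
      (∑ c, genusFF k (Fk c)) + Fintype.card ι + 1)
    (t : SemilinearAut K F) (π : Equiv.Perm κ) (e : ∀ c, Fk c ≃ₐ[k] Fk (π c))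
    (mem : ∀ (c : κ) (f : F), f ∈ (C.S c).Ov → t • f ∈ (C.S (π c)).Ov)
    (red : ∀ (c : κ) (f : F), f ∈ (C.S c).Ov →
      (C.S (π c)).red (t • f) = e c ((C.S c).red f))
    (htx : t • x = x)
    (hex : ∀ (c : κ) (Q : Place k (Fk c)), ∃ Q' : Place k (Fk (π c)), PlaceCorr (e c) Q Q')
    (hbr : ∀ (c : κ) (Q : Place k (Fk c)) (Q' : Place k (Fk (π c))), PlaceCorr (e c) Q Q' →
      (C.IsBr ⟨c, Q⟩ ↔ C.IsBr ⟨π c, Q'⟩)) :
    (C.graphSeedOfX c₀ x hx hpos hn₁ hn₂ hdeg hnode hgenus).IsPermAutW t π e :=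
  C.graphSeedOfX_isPermAutW_of_poleDiv c₀ x hx hpos hn₁ hn₂ hdeg hnode hgenus t π e mem red
    (poleDiv_smul_of_smul_eq _ t htx) (fun c => by rw [htx]) hex hbr

end Fermat.Agent.BadRedG
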