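import Mathlib
import Fermat.Agent.Lib.BadRed.Graph.Deuring.PermDef

set_option autoImplicit false

/-!
# Cluster G, graph Deuring construction: the image of a place under an isomorphism of
function fields (seat PLACE-MAP)

The inertia group swaps the two middle components, so the isomorphisms `e c : Fk c ≃ₐ[k] Fk (π c)`
of `GraphSeed.IsPermAut` go between DIFFERENT types and the Prelude action `σ • v` of
`F ≃ₐ[K] F` on `Place K F` does not apply.  Here:

* `placeMap e Q : Place k L'` for `e : L ≃ₐ[k] L'`, `Q : Place k L`;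
* `placeMap_ord : (placeMap e Q).ord (e y) = Q.ord y`, `placeMap_ord_apply`;
* `placeCorr_placeMap`, `PlaceCorr.eq_placeMap`, `placeCorr_iff_eq_placeMap`, `PlaceCorr.unique`;
* `placeMap_refl`, `placeMap_symm_placeMap`, `placeMap_placeMap_symm`, `placeMap_trans`,
  `placeMapEquiv : Place k L ≃ Place k L'`, `placeMap_cast`, `placeMap_eq_smul`;
* `placeMap_deg`;
* transport of divisors: `poleDiv_placeMap`, `divOf_placeMap`, `poleDiv_map_apply`, `divMap`,
  `divMap_apply`, `degree_divMap`, `poleDiv_eq_divMap`, `divOf_eq_divMap`,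
  `degree_poleDiv_placeMap`, `map_mem_riemannRochSpace_divMap`;
* `exists_placeCorr_poleDiv` : the field `R_smul` of `GraphSeed.IsPermAut` for `R c = poleDiv …`.
-/

noncomputable section

open AlgebraicCurve Fermat.Agent.RR

namespace Fermat.Agent.BadRedG

variable {k L L' L'' : Type*} [Field k] [Field L] [Field L'] [Field L''] [Algebra k L]
  [Algebra k L'] [Algebra k L'']

/-- the isomorphism `A ≃ e(A)` of valuation rings induced by `e`. -/
def placeMapRingEquiv (e : L ≃ₐ[k] L') (A : ValuationSubring L) :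
    A ≃+* (A.comap (e.symm : L' →+* L)) where
  toFun x := ⟨e x, by
    rw [ValuationSubring.mem_comap]
    show e.symm (e x) ∈ A
    rw [e.symm_apply_apply]
    exact x.2⟩
  invFun y := ⟨e.symm y, by
    have h := y.2
    rw [ValuationSubring.mem_comap] at h
    exact h⟩
  left_inv x := by
    ext
    exact e.symm_apply_apply _
  right_inv y := by
    ext
    exact e.apply_symm_apply _
  map_mul' x y := by
    ext
    exact map_mul e _ _
  map_add' x y := by
    ext
    exact map_add e _ _

@[simp]
theorem coe_placeMapRingEquiv_apply (e : L ≃ₐ[k] L') (A : ValuationSubring L) (x : A) :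
    ((placeMapRingEquiv e A x : (A.comap (e.symm : L' →+* L))) : L') = e x := rfl

/-- the image of a place under an isomorphism of function fields. -/
def placeMap (e : L ≃ₐ[k] L') (Q : Place k L) : Place k L' where
  toValuationSubring := Q.toValuationSubring.comap (e.symm : L' →+* L)
  algebraMap_mem' a := by
    rw [ValuationSubring.mem_comap]
    show e.symm (algebraMap k L' a) ∈ Q.toValuationSubring
    rw [e.symm.commutes]
    exact Q.algebraMap_mem' a
  ne_top' h := Q.ne_top' <| by
    refine SetLike.ext fun x => ⟨fun _ => ValuationSubring.mem_top x, fun _ => ?_⟩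
    have hx : e x ∈ Q.toValuationSubring.comap (e.symm : L' →+* L) := by
      rw [h]
      exact ValuationSubring.mem_top _
    rw [ValuationSubring.mem_comap] at hx
    have hx' : e.symm (e x) ∈ Q.toValuationSubring := hx
    rwa [e.symm_apply_apply] at hx'
  isPrincipalIdealRing' :=
    IsPrincipalIdealRing.of_surjective
      (placeMapRingEquiv e Q.toValuationSubring : _ ≃+* _)
      (placeMapRingEquiv e Q.toValuationSubring).surjective

theorem placeMap_toValuationSubring (e : L ≃ₐ[k] L') (Q : Place k L) :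
    (placeMap e Q).toValuationSubring = Q.toValuationSubring.comap (e.symm : L' →+* L) := rfl

/-- the isomorphism `O_Q ≃ O_{e Q}` induced by `e`. -/
def placeRingEquiv (e : L ≃ₐ[k] L') (Q : Place k L) :
    Q.toValuationSubring ≃+* (placeMap e Q).toValuationSubring :=
  placeMapRingEquiv e Q.toValuationSubring

@[simp]
theorem coe_placeRingEquiv_apply (e : L ≃ₐ[k] L') (Q : Place k L) (x : Q.toValuationSubring) :
    ((placeRingEquiv e Q x : (placeMap e Q).toValuationSubring) : L') = e x := rfl

theorem mem_placeMap_iff (e : L ≃ₐ[k] L') (Q : Place k L) (z : L') :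
    z ∈ (placeMap e Q).toValuationSubring ↔ e.symm z ∈ Q.toValuationSubring := Iff.rfl

theorem apply_mem_placeMap_iff (e : L ≃ₐ[k] L') (Q : Place k L) (y : L) :
    e y ∈ (placeMap e Q).toValuationSubring ↔ y ∈ Q.toValuationSubring := by
  rw [mem_placeMap_iff, e.symm_apply_apply]

/-- **`ord_{e Q} (e y) = ord_Q y`**. -/
theorem placeMap_ord (e : L ≃ₐ[k] L') (Q : Place k L) (y : L) :
    (placeMap e Q).ord (e y) = Q.ord y := by
  rcases eq_or_ne y 0 with rfl | hy
  · simp
  obtain ⟨ϖ, hϖ⟩ := IsDiscreteValuationRing.exists_irreducible Q.toValuationSubring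
  obtain ⟨u, hu⟩ := Q.exists_unit_mul_zpow hy hϖ
  set n := Q.ord y with hn
  set E := placeRingEquiv e Q with hE
  have hϖ' : Irreducible (E ϖ) := (MulEquiv.irreducible_iff E).mpr hϖ
  have hu' : IsUnit (E (u : Q.toValuationSubring)) := u.isUnit.map E
  have hcoeu : ((hu'.unit : (placeMap e Q).toValuationSubring) : L')
      = e ((u : Q.toValuationSubring) : L) := by
    rw [IsUnit.unit_spec]
    rfl
  have hcoeϖ : ((E ϖ : (placeMap e Q).toValuationSubring) : L') = e (ϖ : L) := rfl
  have key : e y = ((hu'.unit : (placeMap e Q).toValuationSubring) : L')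
      * (((E ϖ : (placeMap e Q).toValuationSubring) : L') ^ n) := by
    rw [hcoeu, hcoeϖ, hu, map_mul, map_zpow₀]
  rw [key, (placeMap e Q).ord_unit_smul_zpow hu'.unit hϖ' n]

/-- `ord_{e Q} z = ord_Q (e⁻¹ z)`. -/
theorem placeMap_ord_apply (e : L ≃ₐ[k] L') (Q : Place k L) (z : L') :
    (placeMap e Q).ord z = Q.ord (e.symm z) := by
  rw [← placeMap_ord e Q (e.symm z), e.apply_symm_apply]

/-- `placeMap e Q` is the image of `Q` under `e`. -/
theorem placeCorr_placeMap (e : L ≃ₐ[k] L') (Q : Place k L) : PlaceCorr e Q (placeMap e Q) :=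
  fun y => placeMap_ord e Q y

/-- a place is determined by its `ord`. -/
theorem place_ext_ord {Q Q' : Place k L} (h : ∀ y : L, Q'.ord y = Q.ord y) : Q' = Q := by
  apply Place.ext
  ext y
  rw [Fermat.Agent.S24Res.mem_iff_ord_nonneg, Fermat.Agent.S24Res.mem_iff_ord_nonneg, h y]

/-- **uniqueness** of the image of a place. -/
theorem PlaceCorr.eq_placeMap {e : L ≃ₐ[k] L'} {Q : Place k L} {Q' : Place k L'}
    (h : PlaceCorr e Q Q') : Q' = placeMap e Q := by
  apply place_ext_ord
  intro z
  rw [placeMap_ord_apply, ← h (e.symm z), e.apply_symm_apply]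

theorem placeCorr_iff_eq_placeMap {e : L ≃ₐ[k] L'} {Q : Place k L} {Q' : Place k L'} :
    PlaceCorr e Q Q' ↔ Q' = placeMap e Q :=
  ⟨PlaceCorr.eq_placeMap, fun h => h ▸ placeCorr_placeMap e Q⟩

theorem PlaceCorr.unique {e : L ≃ₐ[k] L'} {Q : Place k L} {Q₁ Q₂ : Place k L'}
    (h₁ : PlaceCorr e Q Q₁) (h₂ : PlaceCorr e Q Q₂) : Q₁ = Q₂ := by
  rw [h₁.eq_placeMap, h₂.eq_placeMap]

/-- the source of a place correspondence is unique as well. -/
theorem PlaceCorr.unique_left {e : L ≃ₐ[k] L'} {Q₁ Q₂ : Place k L} {Q' : Place k L'}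
    (h₁ : PlaceCorr e Q₁ Q') (h₂ : PlaceCorr e Q₂ Q') : Q₁ = Q₂ := by
  apply place_ext_ord
  intro y
  rw [← h₁ y, ← h₂ y]

theorem PlaceCorr.symm {e : L ≃ₐ[k] L'} {Q : Place k L} {Q' : Place k L'}
    (h : PlaceCorr e Q Q') : PlaceCorr e.symm Q' Q := by
  intro z
  rw [← h (e.symm z), e.apply_symm_apply]

theorem placeCorr_refl (Q : Place k L) : PlaceCorr (AlgEquiv.refl : L ≃ₐ[k] L) Q Q :=
  fun _ => rfl

@[simp]
theorem placeMap_refl (Q : Place k L) : placeMap (AlgEquiv.refl : L ≃ₐ[k] L) Q = Q :=
  (placeCorr_refl Q).eq_placeMap.symm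

@[simp]
theorem placeMap_symm_placeMap (e : L ≃ₐ[k] L') (Q : Place k L) :
    placeMap e.symm (placeMap e Q) = Q :=
  ((placeCorr_placeMap e Q).symm).eq_placeMap.symm

@[simp]
theorem placeMap_placeMap_symm (e : L ≃ₐ[k] L') (Q' : Place k L') :
    placeMap e (placeMap e.symm Q') = Q' := by
  have h : PlaceCorr e (placeMap e.symm Q') Q' := by
    intro y
    rw [placeMap_ord_apply, AlgEquiv.symm_symm]
  exact h.eq_placeMap.symm

theorem placeMap_trans (e : L ≃ₐ[k] L') (e' : L' ≃ₐ[k] L'') (Q : Place k L) :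
    placeMap (e.trans e') Q = placeMap e' (placeMap e Q) := by
  have h : PlaceCorr (e.trans e') Q (placeMap e' (placeMap e Q)) := by
    intro y
    show (placeMap e' (placeMap e Q)).ord (e' (e y)) = Q.ord y
    rw [placeMap_ord, placeMap_ord]
  exact h.eq_placeMap.symm

/-- `placeMap e` as a bijection of the sets of places. -/
def placeMapEquiv (e : L ≃ₐ[k] L') : Place k L ≃ Place k L' where
  toFun := placeMap e
  invFun := placeMap e.symm
  left_inv := placeMap_symm_placeMap e
  right_inv := placeMap_placeMap_symm e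

@[simp]
theorem placeMapEquiv_apply (e : L ≃ₐ[k] L') (Q : Place k L) :
    placeMapEquiv e Q = placeMap e Q := rfl

@[simp]
theorem placeMapEquiv_symm_apply (e : L ≃ₐ[k] L') (Q' : Place k L') :
    (placeMapEquiv e).symm Q' = placeMap e.symm Q' := rfl

theorem placeMap_injective (e : L ≃ₐ[k] L') : Function.Injective (placeMap e) :=
  (placeMapEquiv e).injective

theorem placeMap_surjective (e : L ≃ₐ[k] L') : Function.Surjective (placeMap e) :=
  (placeMapEquiv e).surjective

theorem placeMap_eq_iff (e : L ≃ₐ[k] L') (Q : Place k L) (Q' : Place k L') :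
    placeMap e Q = Q' ↔ Q = placeMap e.symm Q' := by
  constructor
  · rintro rfl
    exact (placeMap_symm_placeMap e Q).symm
  · rintro rfl
    exact placeMap_placeMap_symm e Q'

/-- for an automorphism, `placeMap` is the Prelude action on places. -/
theorem placeMap_eq_smul (σ : L ≃ₐ[k] L) (Q : Place k L) : placeMap σ Q = σ • Q := by
  have h : PlaceCorr σ Q (σ • Q) := fun y => Place.ord_smul σ Q y
  exact h.eq_placeMap.symm

/-- the image of a place under a cast. -/
theorem placeMap_cast {κ : Type*} {Fk : κ → Type*} [∀ c, Field (Fk c)] [∀ c, Algebra k (Fk c)]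
    {c c' : κ} (h : c = c') (Q : Place k (Fk c)) :
    placeMap (AlgEquiv.cast (R := k) (A := Fk) h) Q = h ▸ Q := by
  subst h
  exact placeMap_refl Q

/-- the residue fields of `Q` and `e Q` are isomorphic. -/
def placeMapResidueAlgEquiv (e : L ≃ₐ[k] L') (Q : Place k L) :
    Q.ResidueField ≃ₐ[k] (placeMap e Q).ResidueField :=
  AlgEquiv.ofRingEquiv (f := IsLocalRing.ResidueField.mapEquiv
      (placeRingEquiv e Q)) <| fun a => by
    have h3 : (placeRingEquiv e Q) (algebraMap k Q.toValuationSubring a)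
        = algebraMap k (placeMap e Q).toValuationSubring a := by
      ext
      rw [coe_placeRingEquiv_apply, Place.coe_algebraMap, e.commutes]
      rfl
    show IsLocalRing.ResidueField.mapEquiv _ (IsLocalRing.residue _ _) = IsLocalRing.residue _ _
    rw [IsLocalRing.ResidueField.mapEquiv_apply, IsLocalRing.ResidueField.map_residue]
    exact congrArg _ h3

@[simp]
theorem placeMap_deg (e : L ≃ₐ[k] L') (Q : Place k L) : (placeMap e Q).deg = Q.deg :=
  ((placeMapResidueAlgEquiv e Q).toLinearEquiv.finrank_eq).symm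

theorem PlaceCorr.deg_eq {e : L ≃ₐ[k] L'} {Q : Place k L} {Q' : Place k L'}
    (h : PlaceCorr e Q Q') : Q'.deg = Q.deg := by
  rw [h.eq_placeMap, placeMap_deg]

/-! ### transport of divisors -/

/-- **transport of pole divisors**: `(e y)_∞ (e Q) = (y)_∞ (Q)`. -/
theorem poleDiv_placeMap (h : IsRRField k L) (h' : IsRRField k L') (e : L ≃ₐ[k] L')
    (y : L) (Q : Place k L) : poleDiv h' (e y) (placeMap e Q) = poleDiv h y Q := by
  rw [poleDiv_apply, poleDiv_apply, placeMap_ord]

theorem poleDiv_map_apply (h : IsRRField k L) (h' : IsRRField k L') (e : L ≃ₐ[k] L')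
    (y : L) (Q' : Place k L') : poleDiv h' (e y) Q' = poleDiv h y (placeMap e.symm Q') := by
  rw [← poleDiv_placeMap h h' e y (placeMap e.symm Q'), placeMap_placeMap_symm]

theorem PlaceCorr.poleDiv_eq (h : IsRRField k L) (h' : IsRRField k L') {e : L ≃ₐ[k] L'}
    {Q : Place k L} {Q' : Place k L'} (hc : PlaceCorr e Q Q') (y : L) :
    poleDiv h' (e y) Q' = poleDiv h y Q := by
  rw [poleDiv_apply, poleDiv_apply, hc y]

/-- transport of principal divisors. -/
theorem divOf_placeMap (h : IsRRField k L) (h' : IsRRField k L') (e : L ≃ₐ[k] L')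
    (y : L) (Q : Place k L) : divOf h' (e y) (placeMap e Q) = divOf h y Q := by
  rw [divOf_apply, divOf_apply, placeMap_ord]

theorem PlaceCorr.divOf_eq (h : IsRRField k L) (h' : IsRRField k L') {e : L ≃ₐ[k] L'}
    {Q : Place k L} {Q' : Place k L'} (hc : PlaceCorr e Q Q') (y : L) :
    divOf h' (e y) Q' = divOf h y Q := by
  rw [divOf_apply, divOf_apply, hc y]

/-- the image of a divisor. -/
def divMap (e : L ≃ₐ[k] L') (D : Divisor k L) : Divisor k L' :=
  Finsupp.mapDomain (placeMap e) D

@[simp]
theorem divMap_apply (e : L ≃ₐ[k] L') (D : Divisor k L) (Q : Place k L) :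
    divMap e D (placeMap e Q) = D Q :=
  Finsupp.mapDomain_apply (placeMap_injective e) D Q

theorem divMap_apply' (e : L ≃ₐ[k] L') (D : Divisor k L) (Q' : Place k L') :
    divMap e D Q' = D (placeMap e.symm Q') := by
  rw [← divMap_apply e D (placeMap e.symm Q'), placeMap_placeMap_symm]

@[simp]
theorem divMap_single (e : L ≃ₐ[k] L') (Q : Place k L) (n : ℤ) :
    divMap e (Finsupp.single Q n) = Finsupp.single (placeMap e Q) n :=
  Finsupp.mapDomain_single

theorem divMap_add (e : L ≃ₐ[k] L') (D E : Divisor k L) :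
    divMap e (D + E) = divMap e D + divMap e E :=
  Finsupp.mapDomain_add

@[simp]
theorem divMap_zero (e : L ≃ₐ[k] L') : divMap e (0 : Divisor k L) = 0 :=
  Finsupp.mapDomain_zero

@[simp]
theorem degree_divMap (e : L ≃ₐ[k] L') (D : Divisor k L) :
    Divisor.degree (divMap e D) = Divisor.degree D := by
  induction D using Finsupp.induction with
  | zero => simp
  | single_add v n D _ _ ih =>
      rw [divMap_add, map_add, map_add, ih, divMap_single, Divisor.degree_single,
        Divisor.degree_single, placeMap_deg]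

/-- `(e y)_∞ = e_* (y)_∞`. -/
theorem poleDiv_eq_divMap (h : IsRRField k L) (h' : IsRRField k L') (e : L ≃ₐ[k] L') (y : L) :
    poleDiv h' (e y) = divMap e (poleDiv h y) := by
  ext Q'
  rw [divMap_apply', poleDiv_map_apply h h']

/-- `div (e y) = e_* div y`. -/
theorem divOf_eq_divMap (h : IsRRField k L) (h' : IsRRField k L') (e : L ≃ₐ[k] L') (y : L) :
    divOf h' (e y) = divMap e (divOf h y) := by
  ext Q'
  rw [divMap_apply', ← divOf_placeMap h h' e y (placeMap e.symm Q'), placeMap_placeMap_symm]

/-- `deg (e y)_∞ = deg (y)_∞`. -/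
theorem degree_poleDiv_placeMap (h : IsRRField k L) (h' : IsRRField k L') (e : L ≃ₐ[k] L') (y : L) :
    Divisor.degree (poleDiv h' (e y)) = Divisor.degree (poleDiv h y) := by
  rw [poleDiv_eq_divMap h h', degree_divMap]

/-- transport of Riemann-Roch spaces: `e y ∈ L(e_* D) ↔ y ∈ L(D)`. -/
theorem map_mem_riemannRochSpace_divMap (e : L ≃ₐ[k] L') (D : Divisor k L) (y : L) :
    e y ∈ riemannRochSpace (divMap e D) ↔ y ∈ riemannRochSpace D := by
  rw [mem_riemannRochSpace_iff, mem_riemannRochSpace_iff]
  constructor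
  · intro hy Q
    have := hy (placeMap e Q)
    rwa [placeMap_ord, divMap_apply, EmbeddingLike.map_eq_zero_iff] at this
  · intro hy Q'
    rw [divMap_apply']
    rcases hy (placeMap e.symm Q') with h0 | h1
    · left
      rw [h0, map_zero]
    · right
      have hord : Q'.ord (e y) = (placeMap e.symm Q').ord y := by
        rw [placeMap_ord_apply, AlgEquiv.symm_symm]
      rw [hord]
      exact h1

/-- **the field `R_smul` of `GraphSeed.IsPermAut` / `IsPermAutW`** when `R` is a pole divisor:
if `e y = y'` then every place `Q` has an image `Q'` with `(y')_∞ (Q') = (y)_∞ (Q)`. -/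
theorem exists_placeCorr_poleDiv (h : IsRRField k L) (h' : IsRRField k L') (e : L ≃ₐ[k] L')
    {y : L} {y' : L'} (hy : e y = y') (Q : Place k L) :
    ∃ Q' : Place k L', PlaceCorr e Q Q' ∧ poleDiv h' y' Q' = poleDiv h y Q :=
  ⟨placeMap e Q, placeCorr_placeMap e Q, by rw [← hy, poleDiv_placeMap h h']⟩

end Fermat.Agent.BadRedG
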